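import Fermat.Agent.GAL.Tors.Dict.Psi
import Fermat.Agent.S24.Degree

/-!
# `[FF K N : K(j)] = [SL₂(ℤ) : Γ₀(N)]` and "good series lie in the function field", generic `K`
-/

set_option autoImplicit false
set_option linter.unusedSectionVars false
namespace Fermat.Agent.GAL.Tors.Dict
open UpperHalfPlane Filter Asymptotics ModularCurve Polynomial Function ModularForm EisensteinSeries
open Fermat.Agent.S24 Fermat.Agent.S24.Degree Fermat.Agent.GAL
open scoped MatrixGroups Manifold

local notation "𝕢" => Periodic.qParam 1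
local notation "Δ" => ModularForm.discriminant

variable (K : Type) [Field K] [Algebra ℚ K] (ι : K →+* ℂ)

variable {K} in
/-- The analytic function attached to a formal series with coefficients in `K`. -/
noncomputable def PsiFun (a : LaurentSeries K) (τ : ℍ) : ℂ := evalAt (𝕢 (τ : ℂ)) (coeffMap ι a)

variable {K ι} in
theorem PsiFun_add {a b : LaurentSeries K} (ha : IsConv (coeffMap ι a))
    (hb : IsConv (coeffMap ι b)) (τ : ℍ) : PsiFun ι (a + b) τ = PsiFun ι a τ + PsiFun ι b τ := by
  rw [PsiFun, map_add, evalAt_add ha hb (qq_ne_zero τ) (norm_qq_lt_one τ)]; rfl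

variable {K ι} in
theorem PsiFun_mul {a b : LaurentSeries K} (ha : IsConv (coeffMap ι a))
    (hb : IsConv (coeffMap ι b)) (τ : ℍ) : PsiFun ι (a * b) τ = PsiFun ι a τ * PsiFun ι b τ := by
  rw [PsiFun, map_mul, evalAt_mul ha hb (qq_ne_zero τ) (norm_qq_lt_one τ)]; rfl

variable {K} in
theorem PsiFun_algebraMap (c : K) (τ : ℍ) :
    PsiFun ι (algebraMap K (LaurentSeries K) c) τ = ι c := by
  rw [PsiFun, JRational.coeffMap_algebraMap', evalAt_algebraMap]

/-- The series which converge, whose sum is `Γ₀(N)`-invariant and all of whose translates are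
holomorphic with moderate growth. -/
def goodSub (N : ℕ) : Subalgebra K (LaurentSeries K) where
  carrier := {a | IsConv (coeffMap ι a) ∧
    (∀ γ ∈ CongruenceSubgroup.Gamma0 N, ∀ τ, PsiFun ι a (γ • τ) = PsiFun ι a τ) ∧
    ∀ g : SL(2, ℤ), (fun τ => PsiFun ι a (g • τ)) ∈ niceSubring}
  mul_mem' := by
    rintro a b ⟨ha, ha2, ha3⟩ ⟨hb, hb2, hb3⟩
    refine ⟨by rw [map_mul]; exact ha.mul hb, fun γ hγ τ => ?_, fun g => ?_⟩
    · rw [PsiFun_mul ha hb, PsiFun_mul ha hb, ha2 γ hγ, hb2 γ hγ]
    · have := niceSubring.mul_mem (ha3 g) (hb3 g)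
      convert this using 1
      funext τ
      exact PsiFun_mul ha hb _
  add_mem' := by
    rintro a b ⟨ha, ha2, ha3⟩ ⟨hb, hb2, hb3⟩
    refine ⟨by rw [map_add]; exact ha.add hb, fun γ hγ τ => ?_, fun g => ?_⟩
    · rw [PsiFun_add ha hb, PsiFun_add ha hb, ha2 γ hγ, hb2 γ hγ]
    · have := niceSubring.add_mem (ha3 g) (hb3 g)
      convert this using 1
      funext τ
      exact PsiFun_add ha hb _
  algebraMap_mem' := by
    intro c
    refine ⟨by rw [JRational.coeffMap_algebraMap']; exact isConv_algebraMap _, fun γ _ τ => ?_,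
      fun g => ?_⟩
    · rw [PsiFun_algebraMap, PsiFun_algebraMap]
    · simp only [PsiFun_algebraMap]
      exact const_mem_niceSubring _

/-- Main relation: every good series is a root of a monic polynomial of degree `[SL₂(ℤ) : Γ₀(N)]`
over `K[j]`. -/
theorem degree_exists_relation (N : ℕ) [NeZero N] (jK : LaurentSeries K)
    (hj1 : IsConv (coeffMap ι jK)) (hj2 : ∀ τ : ℍ, PsiFun ι jK τ = E₄ τ ^ 3 / Δ τ)
    (a : LaurentSeries K) (ha : a ∈ goodSub K ι N) :
    ∃ p' : Fin (Nat.card (SL(2, ℤ) ⧸ CongruenceSubgroup.Gamma0 N)) → K[X],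
      a ^ (Nat.card (SL(2, ℤ) ⧸ CongruenceSubgroup.Gamma0 N))
        + ∑ i, aeval jK (p' i) * a ^ (i : ℕ) = 0 := by
  obtain ⟨ha1, ha2, ha3⟩ := ha
  have hfin : Finite (SL(2, ℤ) ⧸ CongruenceSubgroup.Gamma0 N) :=
    Subgroup.finite_quotient_of_finiteIndex
  obtain ⟨r, hr1, hr2, hr3⟩ := exists_norm_relation (CongruenceSubgroup.Gamma0 N) (PsiFun ι a) ha2
    niceSubring ha3
  have hp : ∀ i, ∃ P : ℂ[X], ∀ τ : ℍ, r i τ = P.eval (E₄ τ ^ 3 / Δ τ) := by
    intro i
    obtain ⟨hmd, m, hm⟩ := hr1 i
    obtain ⟨P, -, hP⟩ := JInvariant.exists_poly_of_invariant (r i) m hmd (hr2 i)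
      (JInvariant.isBoundedAtImInfty_mul_discriminant_pow (r i) m hm)
    exact ⟨P, hP⟩
  choose p hp using hp
  apply descent_relation (ι := ι) jK a p
  have hc : ∀ i : Fin (Nat.card (SL(2, ℤ) ⧸ CongruenceSubgroup.Gamma0 N)),
      IsConv (aeval (coeffMap ι jK) (p i) * coeffMap ι a ^ (i : ℕ)) :=
    fun i => (isConv_aeval hj1 (p i)).1.mul (ha1.pow _)
  have hsum : ∀ s : Finset (Fin (Nat.card (SL(2, ℤ) ⧸ CongruenceSubgroup.Gamma0 N))),
      IsConv (∑ i ∈ s, aeval (coeffMap ι jK) (p i) * coeffMap ι a ^ (i : ℕ)) ∧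
      ∀ τ : ℍ, evalAt (𝕢 (τ : ℂ)) (∑ i ∈ s, aeval (coeffMap ι jK) (p i) * coeffMap ι a ^ (i : ℕ))
        = ∑ i ∈ s, r i τ * PsiFun ι a τ ^ (i : ℕ) := by
    intro s
    induction s using Finset.induction_on with
    | empty => exact ⟨by simpa using isConv_zero, fun τ => by simp [evalAt_zero]⟩
    | insert i s hi ih =>
      rw [Finset.sum_insert hi]
      refine ⟨(hc i).add ih.1, fun τ => ?_⟩
      rw [evalAt_add (hc i) ih.1 (qq_ne_zero τ) (norm_qq_lt_one τ), ih.2 τ, Finset.sum_insert hi,
        evalAt_mul (isConv_aeval hj1 (p i)).1 (ha1.pow _) (qq_ne_zero τ) (norm_qq_lt_one τ),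
        (isConv_aeval hj1 (p i)).2 _ (qq_ne_zero τ) (norm_qq_lt_one τ),
        evalAt_pow ha1 (qq_ne_zero τ) (norm_qq_lt_one τ), hp i τ, ← hj2 τ]
      rfl
  refine eq_zero_of_evalAt_eq_zero ((ha1.pow _).add (hsum _).1) fun q hq hq1 => ?_
  obtain ⟨τ, rfl⟩ := exists_qq_eq hq hq1
  rw [evalAt_add (ha1.pow _) (hsum _).1 (qq_ne_zero τ) (norm_qq_lt_one τ), (hsum _).2 τ,
    evalAt_pow ha1 (qq_ne_zero τ) (norm_qq_lt_one τ)]
  have := congrFun hr3 τ
  simp only [Pi.add_apply, Pi.pow_apply, Finset.sum_apply, Pi.mul_apply, Pi.zero_apply] at this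
  exact this

/-! ### The generators are good -/

theorem degree_PsiFun_jdS (d : ℕ) [NeZero d] (τ : ℍ) : PsiFun ι (jdS K d) τ = Jd d τ := by
  have h := PsiK_jdS K ι d τ
  have e : mulH d τ = ofComplex ((d : ℂ) * (τ : ℂ)) := by
    apply UpperHalfPlane.ext
    rw [coe_mulH, coe_ofComplex_natCast_mul d (NeZero.ne d)]
  rw [e] at h
  exact h

theorem degree_jdS_mem_goodSub {N d : ℕ} [NeZero N] [NeZero d] (hd : d ∣ N) :
    jdS K d ∈ goodSub K ι N := by
  refine ⟨jdS_mem_convK K ι d, fun γ hγ τ => ?_, fun g => ?_⟩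
  · rw [degree_PsiFun_jdS, degree_PsiFun_jdS, Jd_smul_of_mem_Gamma0 hd (NeZero.ne N) γ hγ]
  · simp only [degree_PsiFun_jdS]
    exact ⟨mdifferentiable_Jd_smul d (NeZero.ne d) g, d, isBigO_Jd_smul d (NeZero.ne d) g⟩

theorem degree_jdS_one_eq : jdS K 1 = coeffEmb K jq := by rw [jdS, qExpand_one_apply]

theorem degree_isConv_jK : IsConv (coeffMap ι (coeffEmb K jq)) := by
  rw [← degree_jdS_one_eq]; exact jdS_mem_convK K ι 1

theorem degree_PsiFun_jK (τ : ℍ) : PsiFun ι (coeffEmb K jq) τ = E₄ τ ^ 3 / Δ τ := by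
  rw [← degree_jdS_one_eq]
  have h := PsiK_jdS K ι 1 τ
  rw [EmbedFN.mulH_one] at h
  exact h

theorem degree_transcendental_jK : Transcendental K (coeffEmb K jq) := by
  rw [transcendental_iff]
  intro p hp
  by_contra hp0
  have h := congrArg (fun y : LaurentSeries K => y.coeff (-(p.natDegree : ℤ))) hp
  simp only [HahnSeries.coeff_zero] at h
  rw [aeval_eq_sum_range, HahnSeries.coeff_sum, Finset.sum_range_succ, Finset.sum_eq_zero] at h
  · rw [Algebra.smul_def, coeff_algebraMap_mul, ← map_pow, coeffEmb_coeff,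
      coeff_jq_pow_self] at h
    simp at h
    exact hp0 h
  · intro i hi
    rw [Algebra.smul_def, coeff_algebraMap_mul, ← map_pow, coeffEmb_coeff,
      coeff_jq_pow_of_lt (by have := Finset.mem_range.mp hi; omega)]
    simp

open IntermediateField

theorem degree_finite_gens (N : ℕ) [NeZero N] : (gens K N).Finite := by
  classical
  let f : ℕ → LaurentSeries K := fun d =>
    if h : d ≠ 0 then @jdS K _ _ d ⟨h⟩ else 0
  have : gens K N ⊆ f '' (N.divisors : Set ℕ) := by
    rintro _ ⟨d, hd, hdN, rfl⟩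
    refine ⟨d, by simp [hdN, NeZero.ne N], ?_⟩
    simp only [f]
    rw [dif_pos (NeZero.ne d)]
    rfl
  exact (N.divisors.finite_toSet.image f).subset this

theorem degree_finite_gensF (N : ℕ) [NeZero N] : Finite (gensF K N) := by
  have h : Set.InjOn (Subtype.val : FF K N → LaurentSeries K) (gensF K N) :=
    Subtype.val_injective.injOn
  have h2 : ((Subtype.val : FF K N → LaurentSeries K) '' gensF K N).Finite := by
    rw [image_gensF]
    exact degree_finite_gens K N
  exact (Set.Finite.of_finite_image h2 h).to_subtype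

/-- degree over `k(x)` inside `E` as a relative degree in the ambient field. -/
theorem degree_finrank_eq_relfinrank {k Ω : Type*} [Field k] [Field Ω] [Algebra k Ω]
    (E : IntermediateField k Ω) (x : E) :
    Module.finrank k⟮x⟯ E = IntermediateField.relfinrank k⟮(x : Ω)⟯ E := by
  rw [← IntermediateField.relfinrank_top_right, ← IntermediateField.relfinrank_map_map _ _ E.val,
    IntermediateField.adjoin_map, Set.image_singleton, ← AlgHom.fieldRange_eq_map,
    IntermediateField.fieldRange_val]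
  rfl

/-- abstract bound for the degree of a field generated by a finite set all of whose polynomial
expressions satisfy a monic relation of degree `n` over `k[j]`. -/
theorem degree_relfinrank_adjoin_le {k Ω : Type*} [Field k] [CharZero k] [Field Ω] [Algebra k Ω]
    (S : Set Ω) (hS : S.Finite) (j : Ω) (hj : j ∈ Algebra.adjoin k S) (n : ℕ)
    (hA : ∀ a ∈ Algebra.adjoin k S, ∃ p' : Fin n → k[X],
      a ^ n + ∑ i, aeval j (p' i) * a ^ (i : ℕ) = 0) :
    IntermediateField.relfinrank k⟮j⟯ (IntermediateField.adjoin k S) ≤ n ∧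
      IntermediateField.relfinrank k⟮j⟯ (IntermediateField.adjoin k S) ≠ 0 := by
  set E := IntermediateField.adjoin k S with hE
  have hle : Algebra.adjoin k S ≤ E.toSubalgebra := IntermediateField.algebra_adjoin_le_adjoin k S
  let SE : Set E := Subtype.val ⁻¹' S
  have hSE : Finite SE := by
    have : Finite S := hS.to_subtype
    exact Finite.of_injective (fun y : SE => (⟨(y : E), y.2⟩ : S)) (by
      intro y y' h
      exact Subtype.ext (Subtype.ext (congrArg (fun z : S => (z : Ω)) h)))
  have himg : (⇑E.val '' SE) = S := by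
    ext y
    constructor
    · rintro ⟨z, hz, rfl⟩
      exact hz
    · intro hy
      exact ⟨⟨y, IntermediateField.subset_adjoin k S hy⟩, hy, rfl⟩
  have hmap : (Algebra.adjoin k SE).map E.val = Algebra.adjoin k S := by
    rw [AlgHom.map_adjoin, himg]
  have hmem : ∀ y : E, y ∈ Algebra.adjoin k SE ↔ (y : Ω) ∈ Algebra.adjoin k S := by
    intro y
    rw [← hmap]
    constructor
    · intro hy
      exact ⟨y, hy, rfl⟩
    · rintro ⟨z, hz, hzy⟩
      have : z = y := Subtype.ext hzy
      rwa [← this]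
  let x : E := ⟨j, hle hj⟩
  obtain ⟨h1, h2⟩ := finrank_le_of_relations (k := k) x n SE ((hmem x).2 hj) (by
    intro f
    have hf : (f : Ω) ∈ IntermediateField.adjoin k S := f.2
    rw [IntermediateField.mem_adjoin_iff_div] at hf
    obtain ⟨a, ha, b, hb, hfab⟩ := hf
    by_cases h0 : b = 0
    · refine ⟨0, zero_mem _, 1, one_mem _, one_ne_zero, ?_⟩
      apply Subtype.ext
      rw [hfab, h0]
      simp
    · refine ⟨⟨a, hle ha⟩, (hmem _).2 ha, ⟨b, hle hb⟩, (hmem _).2 hb, ?_, ?_⟩
      · intro h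
        exact h0 (congrArg Subtype.val h)
      · apply Subtype.ext
        rw [hfab]
        rfl) (by
    intro a ha
    obtain ⟨p', hp'⟩ := hA _ ((hmem a).1 ha)
    refine ⟨fun i => ⟨aeval x (p' i), aeval_mem_adjoin_singleton _ _⟩, ?_⟩
    exact relation_lift E x a p' hp')
  rw [degree_finrank_eq_relfinrank E x] at h2
  refine ⟨h2, ?_⟩
  rw [← degree_finrank_eq_relfinrank E x]
  exact Module.finrank_pos.ne'

variable [IsAlgClosed K] [CharZero K]

theorem transcendental_jF (N : ℕ) [NeZero N] : Transcendental K (jF K N) := by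
  intro h
  exact degree_transcendental_jK K (h.algebraMap (A := LaurentSeries K))

theorem AL_le_goodSub (N : ℕ) [NeZero N] : AL K N ≤ goodSub K ι N := by
  rw [AL, Algebra.adjoin_le_iff]
  rintro _ ⟨d, hd, hdN, rfl⟩
  exact degree_jdS_mem_goodSub K ι hdN

include ι in
theorem degree_finiteDimensional_and_finrank_le (N : ℕ) [NeZero N] :
    FiniteDimensional K⟮jF K N⟯ (FF K N) ∧
      Module.finrank K⟮jF K N⟯ (FF K N) ≤ Nat.card (SL(2, ℤ) ⧸ CongruenceSubgroup.Gamma0 N) := by
  have := degree_finite_gensF K N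
  refine finrank_le_of_relations (jF K N) _ (gensF K N) (jF_mem_A K N)
    (exists_div K N) fun a ha => ?_
  have ha' : (a : LaurentSeries K) ∈ goodSub K ι N :=
    AL_le_goodSub K ι N ((mem_A_iff K).mp ha)
  obtain ⟨p', hp'⟩ := degree_exists_relation K ι N (coeffEmb K jq) (degree_isConv_jK K ι)
    (degree_PsiFun_jK K ι) _ ha'
  refine ⟨fun i => ⟨aeval (jF K N) (p' i), aeval_mem_adjoin_singleton _ _⟩, ?_⟩
  exact relation_lift (FF K N) (jF K N) a p' hp'

include ι in
theorem finiteDimensional_jF (N : ℕ) [NeZero N] : FiniteDimensional K⟮jF K N⟯ (FF K N) :=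
  (degree_finiteDimensional_and_finrank_le K ι N).1

include ι in
theorem finrank_jF (N : ℕ) [NeZero N] :
    Module.finrank K⟮jF K N⟯ (FF K N) = Nat.card (SL(2, ℤ) ⧸ CongruenceSubgroup.Gamma0 N) := by
  have := finiteDimensional_jF K ι N
  refine le_antisymm (degree_finiteDimensional_and_finrank_le K ι N).2 ?_
  obtain ⟨fam⟩ := EmbedPoint.nonempty_localFamily_zero (F := FF K N) (realisation K ι N)
  refine card_le_finrank_of_ringHoms (k := K) (jF K N) fam.σ fam.inj fam.const fun i i' => ?_
  have h := fam.agree i i'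
  rw [map_sub, map_sub, fam.const i i' 0] at h
  exact sub_left_injective h

/-- **Good series lie in the function field**: a series with coefficients in `K` which converges
to a `Γ₀(N)`-invariant holomorphic function all of whose translates have moderate growth lies in
`FF K N`. -/
theorem goodSub_le (N : ℕ) [NeZero N] : goodSub K ι N ≤ (FF K N).toSubalgebra := by
  intro a ha
  set n := Nat.card (SL(2, ℤ) ⧸ CongruenceSubgroup.Gamma0 N) with hn
  set j : LaurentSeries K := coeffEmb K jq with hj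
  have hjgens : j ∈ gens K N := by
    have := mem_gens K (N := N) (d := 1) (one_dvd N)
    rwa [qExpand_one_apply] at this
  have hSle : Algebra.adjoin K (gens K N ∪ {a}) ≤ goodSub K ι N := by
    rw [Algebra.adjoin_le_iff]
    rintro y (hy | hy)
    · exact AL_le_goodSub K ι N (Algebra.subset_adjoin hy)
    · rw [Set.mem_singleton_iff] at hy
      rw [hy]
      exact ha
  obtain ⟨h1, h2⟩ := degree_relfinrank_adjoin_le (k := K) (gens K N ∪ {a})
    ((degree_finite_gens K N).union (Set.finite_singleton a)) j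
    (Algebra.subset_adjoin (Or.inl hjgens)) n (fun b hb =>
      degree_exists_relation K ι N j (degree_isConv_jK K ι) (degree_PsiFun_jK K ι) b (hSle hb))
  set E := IntermediateField.adjoin K (gens K N ∪ {a}) with hE
  have hFE : FF K N ≤ E := by
    rw [FF_eq_adjoin]
    exact IntermediateField.adjoin.mono K _ _ Set.subset_union_left
  have hJF : K⟮j⟯ ≤ FF K N := by
    rw [IntermediateField.adjoin_simple_le_iff]
    exact gens_subset K N hjgens
  have h3 : IntermediateField.relfinrank K⟮j⟯ (FF K N) = n := by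
    have h := finrank_jF K ι N
    rw [degree_finrank_eq_relfinrank (FF K N) (jF K N)] at h
    exact h
  have h4 := IntermediateField.relfinrank_mul_relfinrank hJF hFE
  rw [h3] at h4
  have h5 : IntermediateField.relfinrank (FF K N) E = 1 := by
    have hpos : IntermediateField.relfinrank (FF K N) E ≠ 0 := by
      intro h0
      rw [h0, mul_zero] at h4
      exact h2 h4.symm
    have hnpos : 0 < n := by
      rcases Nat.eq_zero_or_pos n with h0 | h0
      · rw [h0, zero_mul] at h4
        exact absurd h4.symm h2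
      · exact h0
    have : n * IntermediateField.relfinrank (FF K N) E ≤ n * 1 := by
      rw [h4, mul_one]; exact h1
    have := Nat.le_of_mul_le_mul_left this hnpos
    omega
  rw [IntermediateField.relfinrank_eq_one_iff] at h5
  exact h5 (IntermediateField.subset_adjoin K _ (Or.inr rfl))

end Fermat.Agent.GAL.Tors.Dict
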