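import Fermat.Agent.S24.LocalCount
import Fermat.Agent.S24.PlaceBasic
import Fermat.Agent.S24.Defs

set_option autoImplicit false

/-!
# DICT leaf PL: places from order functions
-/

namespace Fermat.Agent.GAL.Tors.Dict

open AlgebraicCurve Fermat.Agent.S24

section aux

variable {K F : Type*} [Field K] [Field F] [Algebra K F] (w : OrdFun K F)

theorem PlaceOf_ord_one : w.ord 1 = 0 := by
  have := w.ord_mul (f := 1) (g := 1) one_ne_zero one_ne_zero
  rw [mul_one] at this
  omega

theorem PlaceOf_ord_neg_one : w.ord (-1) = 0 := by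
  have h := w.ord_mul (f := -1) (g := -1) (neg_ne_zero.2 one_ne_zero) (neg_ne_zero.2 one_ne_zero)
  rw [neg_mul_neg, mul_one, PlaceOf_ord_one] at h
  omega

theorem PlaceOf_ord_neg {f : F} (hf : f ≠ 0) : w.ord (-f) = w.ord f := by
  have h := w.ord_mul (f := -1) (g := f) (neg_ne_zero.2 one_ne_zero) hf
  rw [neg_one_mul, PlaceOf_ord_neg_one, zero_add] at h
  exact h

theorem PlaceOf_ord_inv {f : F} (hf : f ≠ 0) : w.ord f⁻¹ = - w.ord f := by
  have h := w.ord_mul hf (inv_ne_zero hf)
  rw [mul_inv_cancel₀ hf, PlaceOf_ord_one] at h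
  omega

/-- The valuation ring of an order function. -/
def PlaceOf_ring : ValuationSubring F where
  carrier := {f | f = 0 ∨ 0 ≤ w.ord f}
  mul_mem' := by
    rintro a b (rfl | ha) (rfl | hb)
    · left; simp
    · left; simp
    · left; simp
    · by_cases ha0 : a = 0
      · left; simp [ha0]
      by_cases hb0 : b = 0
      · left; simp [hb0]
      right
      rw [w.ord_mul ha0 hb0]
      omega
  one_mem' := Or.inr (PlaceOf_ord_one w).ge
  add_mem' := by
    rintro a b ha hb
    by_cases ha0 : a = 0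
    · simpa [ha0] using hb
    by_cases hb0 : b = 0
    · simpa [hb0] using ha
    by_cases hab : a + b = 0
    · exact Or.inl hab
    right
    have h := w.ord_add ha0 hb0 hab
    have h1 : 0 ≤ w.ord a := ha.resolve_left ha0
    have h2 : 0 ≤ w.ord b := hb.resolve_left hb0
    exact le_trans (le_min h1 h2) h
  zero_mem' := Or.inl rfl
  neg_mem' := by
    rintro a (rfl | ha)
    · left; simp
    · by_cases ha0 : a = 0
      · left; simp [ha0]
      right
      rw [PlaceOf_ord_neg w ha0]
      exact ha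
  mem_or_inv_mem' := by
    intro a
    by_cases ha0 : a = 0
    · exact Or.inl (Or.inl ha0)
    rcases le_total 0 (w.ord a) with h | h
    · exact Or.inl (Or.inr h)
    · refine Or.inr (Or.inr ?_)
      rw [PlaceOf_ord_inv w ha0]
      omega

theorem PlaceOf_mem_ring (f : F) : f ∈ PlaceOf_ring w ↔ f = 0 ∨ 0 ≤ w.ord f := Iff.rfl

theorem PlaceOf_isPrincipalIdealRing : IsPrincipalIdealRing (PlaceOf_ring w) := by
  classical
  refine ⟨fun I => ⟨?_⟩⟩
  by_cases hI : I = ⊥
  · exact ⟨0, by rw [hI]; simp⟩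
  obtain ⟨a, haI, ha0⟩ := Submodule.exists_mem_ne_zero_of_ne_bot hI
  -- choose an element of minimal order
  let P : ℕ → Prop := fun n => ∃ b ∈ I, b ≠ 0 ∧ (w.ord (b : F)).toNat = n
  have hP : ∃ n, P n := ⟨_, a, haI, ha0, rfl⟩
  obtain ⟨b, hbI, hb0, hbn⟩ := Nat.find_spec hP
  have hb0' : (b : F) ≠ 0 := by simpa using hb0
  have hbpos : 0 ≤ w.ord (b : F) := (b.2).resolve_left hb0'
  refine ⟨b, le_antisymm ?_ ?_⟩
  · intro c hc
    rw [Submodule.mem_span_singleton]
    by_cases hc0 : c = 0
    · exact ⟨0, by simp [hc0]⟩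
    have hc0' : (c : F) ≠ 0 := by simpa using hc0
    have hcpos : 0 ≤ w.ord (c : F) := (c.2).resolve_left hc0'
    have hmin : Nat.find hP ≤ (w.ord (c : F)).toNat := Nat.find_min' hP ⟨c, hc, hc0, rfl⟩
    have hle : w.ord (b : F) ≤ w.ord (c : F) := by
      rw [← hbn] at hmin
      omega
    have hmem : (c : F) * (b : F)⁻¹ ∈ PlaceOf_ring w := by
      right
      rw [w.ord_mul hc0' (inv_ne_zero hb0'), PlaceOf_ord_inv w hb0']
      omega
    refine ⟨⟨_, hmem⟩, ?_⟩
    apply Subtype.ext
    show (c : F) * (b : F)⁻¹ * (b : F) = c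
    field_simp
  · rw [Submodule.span_singleton_le_iff_mem]
    exact hbI

/-- Precise form of `exists_place_of_ordFun`. -/
theorem PlaceOf_exists (x : F) (hx0 : x ≠ 0) (hx : w.ord x ≠ 0) :
    ∃ (v : Place K F) (M : ℤ), 0 < M ∧ v.toValuationSubring = PlaceOf_ring w ∧
      ∀ f : F, f ≠ 0 → w.ord f = M * v.ord f := by
  have hne : PlaceOf_ring w ≠ ⊤ := by
    intro h
    have h1 : x ∈ PlaceOf_ring w := by rw [h]; trivial
    have h2 : x⁻¹ ∈ PlaceOf_ring w := by rw [h]; trivial
    have h1' := h1.resolve_left hx0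
    have h2' := h2.resolve_left (inv_ne_zero hx0)
    rw [PlaceOf_ord_inv w hx0] at h2'
    omega
  let v : Place K F :=
    { toValuationSubring := PlaceOf_ring w
      algebraMap_mem' := by
        intro a
        by_cases ha : a = 0
        · left; simp [ha]
        · right; rw [w.ord_algebraMap a ha]
      ne_top' := hne
      isPrincipalIdealRing' := PlaceOf_isPrincipalIdealRing w }
  obtain ⟨M, hM, h⟩ := exists_mul_ord_of_hom v w.ord (fun f g hf hg => w.ord_mul hf hg)
    (fun f hf => ⟨fun h => h.resolve_left hf, fun h => Or.inr h⟩)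
  exact ⟨v, M, hM, rfl, h⟩

end aux

/-- A nontrivial `ℤ`-valued order function on `F/K` is a positive multiple of the order function
of a place. -/
theorem exists_place_of_ordFun {K F : Type*} [Field K] [Field F] [Algebra K F] (w : OrdFun K F)
    (x : F) (hx0 : x ≠ 0) (hx : w.ord x ≠ 0) :
    ∃ (v : Place K F) (M : ℤ), 0 < M ∧ ∀ f : F, f ≠ 0 → w.ord f = M * v.ord f := by
  obtain ⟨v, M, hM, -, h⟩ := PlaceOf_exists w x hx0 hx
  exact ⟨v, M, hM, h⟩

/-- The place attached to an embedding into Laurent series. -/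
theorem exists_place_of_hom {k F L : Type*} [Field k] [IsAlgClosed k] [Field F] [Algebra k F]
    [Field L] (φ : F →+* LaurentSeries L) (x : F) (hx : ordOf φ x ≠ 0) :
    ∃ (v : Place k F) (M : ℤ), 0 < M ∧ v.toValuationSubring = ringOf φ ∧
      ∀ f : F, f ≠ 0 → ordOf φ f = M * v.ord f := by
  have h0 : ordOf φ 0 = 0 := by unfold ordOf; rw [map_zero, HahnSeries.order_zero]
  have hx0 : x ≠ 0 := by
    rintro rfl
    exact hx h0
  let w : OrdFun k F :=
    { ord := ordOf φ
      ord_mul := fun hf hg => ordOf_mul φ hf hg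
      ord_add := by
        intro f g hf hg hfg
        unfold ordOf
        rw [map_add]
        refine HahnSeries.min_order_le_order_add ?_
        rw [← map_add]
        exact map_ne_zero_of_ne φ hfg
      ord_algebraMap := fun a _ => ordOf_algebraMap φ a }
  obtain ⟨v, M, hM, hv, h⟩ := PlaceOf_exists w x hx0 hx
  refine ⟨v, M, hM, ?_, h⟩
  rw [hv]
  ext f
  rw [PlaceOf_mem_ring, mem_ringOf]
  constructor
  · rintro (rfl | h)
    · exact h0.ge
    · exact h
  · exact fun h => Or.inr h

/-- Divisibility of all orders is preserved by a homomorphism of function fields mapping constants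
to constants. -/
theorem dvd_ord_map {K F K' F' : Type*} [Field K] [Field F] [Algebra K F] [Field K'] [Field F']
    [Algebra K' F'] (φ : F →+* F')
    (hφ : ∀ a : K, ∃ b : K', φ (algebraMap K F a) = algebraMap K' F' b)
    (m : ℤ) (u : F) (hu0 : u ≠ 0) (hu : ∀ v : Place K F, m ∣ v.ord u) (P : Place K' F') :
    m ∣ P.ord (φ u) := by
  have hne : ∀ {f : F}, f ≠ 0 → φ f ≠ 0 := fun hf => (map_ne_zero φ).mpr hf
  let w : OrdFun K F :=
    { ord := fun f => P.ord (φ f)
      ord_mul := by
        intro f g hf hg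
        rw [map_mul, Place.ord_mul _ (hne hf) (hne hg)]
      ord_add := by
        intro f g hf hg hfg
        rw [map_add]
        refine ord_add_ge P ?_ (hne hf) (hne hg)
        rw [← map_add]
        exact hne hfg
      ord_algebraMap := by
        intro a _
        obtain ⟨b, hb⟩ := hφ a
        rw [hb, ord_algebraMap] }
  by_cases h : w.ord u = 0
  · have : P.ord (φ u) = 0 := h
    rw [this]
    exact dvd_zero m
  · obtain ⟨v, M, -, hv⟩ := exists_place_of_ordFun w u hu0 h
    have : P.ord (φ u) = M * v.ord u := hv u hu0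
    rw [this]
    exact Dvd.dvd.mul_left (hu v) M

end Fermat.Agent.GAL.Tors.Dict
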