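import Fermat.Agent.GAL.Tors.Dict.Gen
import Fermat.Agent.S24
import Fermat.Agent.S24.EmbedCuspFN

set_option autoImplicit false
set_option linter.unusedSectionVars false

/-!
# Realisation of `AK K N = K[j_d : d ∣ N]` by holomorphic functions, for a general constant field
`K` with an embedding `ι : K →+* ℂ` (generic version of `S24/Psi`, `S24/EmbedFN`).
-/

open UpperHalfPlane ModularCurve CongruenceSubgroup
open scoped MatrixGroups Manifold

noncomputable section

namespace Fermat.Agent.GAL.Tors.Dict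

open Fermat.Agent.S24 Fermat.Agent.GAL Fermat.Agent.S24.JLocal Fermat.Agent.S24.EmbedPoint

local notation "𝕢" => Function.Periodic.qParam

variable (K : Type) [Field K] [Algebra ℚ K] (ι : K →+* ℂ)

variable {K} in
theorem coeffMap_algebraMap_gen (c : K) :
    coeffMap ι (algebraMap K (LaurentSeries K) c) = algebraMap ℂ (LaurentSeries ℂ) (ι c) := by
  rw [algebraMap_laurentSeries_eq_single, algebraMap_laurentSeries_eq_single, coeffMap_single]

/-- The `K`-algebra of Laurent series over `K` which converge (via `ι`) on the punctured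
unit disc. -/
def convK : Subalgebra K (LaurentSeries K) where
  carrier := {x | IsConv (coeffMap ι x)}
  mul_mem' {x y} hx hy := by
    show IsConv _
    rw [map_mul]; exact IsConv.mul hx hy
  add_mem' {x y} hx hy := by
    show IsConv _
    rw [map_add]; exact IsConv.add hx hy
  algebraMap_mem' c := by
    show IsConv _
    rw [coeffMap_algebraMap_gen]; exact isConv_algebraMap _

variable {K ι} in
theorem mem_convK {x : LaurentSeries K} : x ∈ convK K ι ↔ IsConv (coeffMap ι x) := Iff.rfl

/-- Realisation of convergent series by functions on the upper half plane. -/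
def PsiK : convK K ι →+* (ℍ → ℂ) where
  toFun x τ := evalAt (𝕢 1 τ) (coeffMap ι x)
  map_one' := by
    funext τ
    simp [evalAt_one]
  map_mul' x y := by
    funext τ
    simp only [Subalgebra.coe_mul, map_mul, Pi.mul_apply]
    exact evalAt_mul x.2 y.2 (qParam_ne_zero' τ) (norm_qParam_lt_one' τ)
  map_zero' := by
    funext τ
    simp [evalAt_zero]
  map_add' x y := by
    funext τ
    simp only [Subalgebra.coe_add, map_add, Pi.add_apply]
    exact evalAt_add x.2 y.2 (qParam_ne_zero' τ) (norm_qParam_lt_one' τ)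

theorem PsiK_apply (x : convK K ι) (τ : ℍ) :
    PsiK K ι x τ = evalAt (𝕢 1 τ) (coeffMap ι (x : LaurentSeries K)) := rfl

variable {K} in
theorem coeffMap_injective_gen : Function.Injective (coeffMap ι) := by
  intro x y h
  ext n
  have := congrArg (fun z => z.coeff n) h
  simpa using ι.injective this

theorem PsiK_injective : Function.Injective (PsiK K ι) := by
  intro x y h
  apply Subtype.ext
  apply coeffMap_injective_gen ι
  refine eq_of_evalAt_eq x.2 y.2 fun q hq hq1 => ?_
  obtain ⟨τ, rfl⟩ := exists_qParam_eq hq hq1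
  exact congrFun h τ

theorem PsiK_algebraMap (c : K) (τ : ℍ) : PsiK K ι (algebraMap K (convK K ι) c) τ = ι c := by
  rw [PsiK_apply]
  show evalAt _ (coeffMap ι (algebraMap K (LaurentSeries K) c)) = _
  rw [coeffMap_algebraMap_gen, evalAt_algebraMap]

theorem mdifferentiable_PsiK (x : convK K ι) : MDiff (PsiK K ι x) := by
  rw [UpperHalfPlane.mdifferentiable_iff]
  have h1 : DifferentiableOn ℂ
      ((fun q => evalAt q (coeffMap ι (x : LaurentSeries K))) ∘ (𝕢 1)) {z | 0 < z.im} := by
    refine (IsConv.differentiableOn x.2).comp (by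
      intro z _
      exact (Function.Periodic.differentiable_qParam z).differentiableWithinAt) ?_
    intro z hz
    refine ⟨?_, Function.Periodic.qParam_ne_zero _⟩
    simpa using Function.Periodic.norm_qParam_lt_one one_pos hz
  refine h1.congr fun z hz => ?_
  simp only [Function.comp_apply, PsiK_apply, ofComplex_apply_of_im_pos hz]

/-- The generator `j(q^d)` of the function field, as a series. -/
def jdS (d : ℕ) [NeZero d] : LaurentSeries K := coeffEmb K (qExpand ℚ d jq)

theorem coeffMap_jdS (d : ℕ) [NeZero d] : coeffMap ι (jdS K d) = qExpand ℂ d jqC := by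
  rw [jdS, coeffEmb, coeffMap_coeffMap, jqC, ← coeffMap_qExpand]
  refine coeffMap_congr ?_ _
  exact RingHom.ext fun c => by simp

theorem jdS_mem_convK (d : ℕ) [NeZero d] : jdS K d ∈ convK K ι := by
  rw [mem_convK, coeffMap_jdS]
  exact isConv_jqC.qExpand d

/-- `Ψ (j(q^d)) (τ) = J (d τ)`. -/
theorem PsiK_jdS (d : ℕ) [NeZero d] (τ : ℍ) :
    PsiK K ι ⟨jdS K d, jdS_mem_convK K ι d⟩ τ = kleinJ (mulH d τ) := by
  rw [PsiK_apply, coeffMap_jdS, evalAt_qExpand, ← evalAt_jqC (mulH d τ), coe_mulH]
  congr 1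
  simp only [Function.Periodic.qParam]
  rw [← Complex.exp_nat_mul]
  congr 1
  simp only [Complex.ofReal_one, div_one]
  ring

theorem AL_le_convK (N : ℕ) : AL K N ≤ convK K ι := by
  rw [AL, Algebra.adjoin_le_iff]
  rintro s ⟨d, hd, -, rfl⟩
  exact jdS_mem_convK K ι d

/-- the inclusion of `AK K N` in the algebra of convergent series. -/
def toConvK (N : ℕ) : AK K N →ₐ[K] convK K ι :=
  ((FF K N).val.comp (AK K N).val).codRestrict (convK K ι)
    fun x => AL_le_convK K ι N ((mem_A_iff K).mp x.2)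

theorem coe_toConvK (N : ℕ) (x : AK K N) :
    ((toConvK K ι N x : convK K ι) : LaurentSeries K) = ((x : FF K N) : LaurentSeries K) := rfl

theorem toConvK_injective (N : ℕ) : Function.Injective (toConvK K ι N) := by
  intro x y h
  have := congrArg (Subtype.val) h
  exact Subtype.ext (Subtype.ext this)

/-- Realisation of `AK K N` by holomorphic functions. -/
def PsiA (N : ℕ) : AK K N →+* (ℍ → ℂ) := (PsiK K ι).comp (toConvK K ι N : AK K N →+* convK K ι)

theorem PsiA_apply (N : ℕ) (x : AK K N) : PsiA K ι N x = PsiK K ι (toConvK K ι N x) := rfl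

/-- `PsiA` is the sum of the `q`-expansion. -/
theorem PsiA_eq_evalAt (N : ℕ) (x : AK K N) (τ : ℍ) :
    PsiA K ι N x τ = evalAt (𝕢 1 τ) (coeffMap ι ((x : FF K N) : LaurentSeries K)) := rfl

theorem isConv_coe (N : ℕ) (x : AK K N) : IsConv (coeffMap ι ((x : FF K N) : LaurentSeries K)) :=
  (toConvK K ι N x).2

theorem PsiA_injective (N : ℕ) : Function.Injective (PsiA K ι N) :=
  (PsiK_injective K ι).comp (toConvK_injective K ι N)

theorem PsiA_jd (N d : ℕ) [NeZero d] (hd : d ∣ N) (τ : ℍ) :
    PsiA K ι N ⟨jd K N d hd, jd_mem_A K N d hd⟩ τ = kleinJ (mulH d τ) :=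
  PsiK_jdS K ι d τ

theorem PsiA_algebraMap (N : ℕ) (c : K) (τ : ℍ) :
    PsiA K ι N (algebraMap K (AK K N) c) τ = ι c := by
  rw [PsiA_apply]
  have : toConvK K ι N (algebraMap K (AK K N) c) = algebraMap K (convK K ι) c :=
    (toConvK K ι N).commutes c
  rw [this, PsiK_algebraMap]

theorem PsiA_jF (N : ℕ) (τ : ℍ) : PsiA K ι N ⟨jF K N, jF_mem_A K N⟩ τ = kleinJ τ := by
  have h := PsiA_jd K ι N 1 (one_dvd N) τ
  rw [EmbedFN.mulH_one] at h
  rw [← h]
  have e : (⟨jF K N, jF_mem_A K N⟩ : AK K N) = ⟨jd K N 1 (one_dvd N), jd_mem_A K N 1 (one_dvd N)⟩ :=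
    Subtype.ext (jd_one K N).symm
  rw [e]

theorem mdifferentiable_PsiA (N : ℕ) (x : AK K N) : MDiff (PsiA K ι N x) :=
  mdifferentiable_PsiK K ι _

/-- a property of all elements of `AK K N` follows from generators. -/
theorem PsiA_induction {N : ℕ} {P : (ℍ → ℂ) → Prop}
    (hj : ∀ (d : ℕ) [NeZero d] (_ : d ∣ N), P (fun τ => kleinJ (mulH d τ)))
    (hc : ∀ c : ℂ, P (fun _ => c))
    (hadd : ∀ f g, P f → P g → P (f + g)) (hmul : ∀ f g, P f → P g → P (f * g)) (x : AK K N) :
    P (PsiA K ι N x) := by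
  have htop : x ∈ Algebra.adjoin K ((↑) ⁻¹' gensF K N : Set (AK K N)) := by
    have h : Algebra.adjoin K ((↑) ⁻¹' gensF K N : Set (AK K N)) = ⊤ :=
      Algebra.adjoin_adjoin_coe_preimage (R := K) (s := gensF K N)
    rw [h]
    trivial
  induction htop using Algebra.adjoin_induction with
  | mem y hy =>
      obtain ⟨d, hd, hdN, hy'⟩ := hy
      have e : y = ⟨jd K N d hdN, jd_mem_A K N d hdN⟩ := Subtype.ext hy'
      have : PsiA K ι N y = fun τ => kleinJ (mulH d τ) := by
        rw [e]; exact funext fun τ => PsiA_jd K ι N d hdN τ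
      rw [this]
      exact hj d hdN
  | algebraMap c =>
      have : PsiA K ι N (algebraMap K (AK K N) c) = fun _ => ι c :=
        funext fun τ => PsiA_algebraMap K ι N c τ
      rw [this]
      exact hc _
  | add x y _ _ hx' hy' =>
      rw [map_add]
      exact hadd _ _ hx' hy'
  | mul x y _ _ hx' hy' =>
      rw [map_mul]
      exact hmul _ _ hx' hy'

/-- The realisation of `AK K N`. -/
def realisation (N : ℕ) [NeZero N] : Realisation K (AK K N) (Gamma0 N) where
  Ψ := PsiA K ι N
  inj := PsiA_injective K ι N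
  inv γ hγ a τ := by
    refine PsiA_induction K ι (P := fun f => f (γ • τ) = f τ) ?_ ?_ ?_ ?_ a
    · intro d _ hd
      exact EmbedFN.kleinJ_mulH_smul_of_mem_Gamma0 d hd γ hγ τ
    · intro c; rfl
    · intro f g hf hg
      rw [Pi.add_apply, Pi.add_apply, hf, hg]
    · intro f g hf hg
      rw [Pi.mul_apply, Pi.mul_apply, hf, hg]
  hol a := mdifferentiable_PsiK K ι _
  ι := ι
  const := PsiA_algebraMap K ι N
  jA := ⟨jF K N, jF_mem_A K N⟩
  hjA := PsiA_jF K ι N
  aN := ⟨jd K N N dvd_rfl, jd_mem_A K N N dvd_rfl⟩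
  haN g hg := stabiliser_Gamma0 N g fun τ => by
    rw [← PsiA_jd K ι N N dvd_rfl, ← PsiA_jd K ι N N dvd_rfl]
    exact hg τ

/-- All translates of elements of `AK K N` have an expansion at the cusp `∞`. -/
theorem translate_mem_Rcusp (N : ℕ) [NeZero N] (g : SL(2, ℤ)) (a : AK K N) :
    Embed.translate (PsiA K ι N) g a ∈ CuspRing.Rcusp N := by
  have key : (fun τ => PsiA K ι N a (g⁻¹ • τ)) ∈ CuspRing.Rcusp N := by
    refine PsiA_induction K ι
      (P := fun f => (fun τ => f (g⁻¹ • τ)) ∈ CuspRing.Rcusp N) ?_ ?_ ?_ ?_ a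
    · intro d _ hd
      exact EmbedCuspFN.kleinJ_mulH_smul_mem N d hd g⁻¹
    · intro c
      exact CuspRing.const_mem N c
    · intro f f' hf hf'
      exact (CuspRing.Rcusp N).add_mem hf hf'
    · intro f f' hf hf'
      exact (CuspRing.Rcusp N).mul_mem hf hf'
  exact key

end Fermat.Agent.GAL.Tors.Dict
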