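import Fermat.Agent.GAL.Tors.Mer
import Fermat.Agent.GAL.Tors.HoloRoot
import Fermat.Agent.GAL.Tors.Dict.Psi

/-!
# DICT leaf BR: bridge between `PsiMer N : FF ℂ N →+* Mer` and `PsiA ℂ id N : AK ℂ N →+* (ℍ → ℂ)`
-/

set_option autoImplicit false
set_option linter.unusedSectionVars false

open UpperHalfPlane AlgebraicCurve ModularCurve CongruenceSubgroup Filter Asymptotics
open scoped Manifold MatrixGroups Real

noncomputable section

namespace Fermat.Agent.GAL.Tors.Dict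

open Fermat.Agent.S24 Fermat.Agent.GAL Fermat.Agent.GAL.Tors

/-- The realisation of `ℂ[j_d]` by holomorphic functions. -/
abbrev PsiAC (N : ℕ) : AK ℂ N →+* (ℍ → ℂ) := PsiA ℂ (RingHom.id ℂ) N

/-- ... as elements of `Holo`. -/
def PsiH (N : ℕ) : AK ℂ N →+* Holo :=
  (PsiAC N).codRestrict Holo (fun a => mdifferentiable_PsiA ℂ (RingHom.id ℂ) N a)

theorem PsiH_apply (N : ℕ) (a : AK ℂ N) (τ : ℍ) : (PsiH N a : ℍ → ℂ) τ = PsiAC N a τ := rfl

/-- (BR1') a convergent series lying in `FF ℂ N`. -/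
theorem PsiMer_of_isConv (N : ℕ) (x : FF ℂ N) (hx : IsConv (x : LaurentSeries ℂ)) :
    PsiMer N x = ofHolo (PsiC ⟨x, hx⟩) := by
  rw [PsiMer_eq]
  exact PsiQ_conv ⟨x, hx⟩

/-- (BR1) -/
theorem PsiMer_coe (N : ℕ) (a : AK ℂ N) : PsiMer N (a : FF ℂ N) = ofHolo (PsiH N a) := by
  have hx : IsConv (((a : FF ℂ N)) : LaurentSeries ℂ) := by
    have := isConv_coe ℂ (RingHom.id ℂ) N a
    rwa [coeffMap_id] at this
  rw [PsiMer_of_isConv N a hx]
  have e : PsiC ⟨((a : FF ℂ N) : LaurentSeries ℂ), hx⟩ = PsiH N a := by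
    apply Subtype.ext
    funext τ
    rw [PsiC_apply, PsiH_apply, PsiA_eq_evalAt, coeffMap_id]
  rw [e]

/-- (BR2 = D0) modular functions are `Γ₀(N)`-invariant. -/
theorem compSL_PsiMer (N : ℕ) [NeZero N] (γ : Gamma0 N) (x : FF ℂ N) :
    compSL (γ : SL(2, ℤ)) (PsiMer N x) = PsiMer N x := by
  have h : (compSL (γ : SL(2, ℤ))).comp (PsiMer N) = PsiMer N := by
    apply IsFractionRing.ringHom_ext (A := AK ℂ N)
    intro a
    show compSL (γ : SL(2, ℤ)) (PsiMer N (a : FF ℂ N)) = PsiMer N (a : FF ℂ N)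
    rw [PsiMer_coe, compSL_ofHolo_apply]
    congr 1
    apply Subtype.ext
    funext τ
    rw [holoComp_apply, PsiH_apply, PsiH_apply]
    exact (realisation ℂ (RingHom.id ℂ) N).inv γ γ.2 a τ
  exact DFunLike.congr_fun h x

/-- (BR3) modulo `m`-th powers every unit is represented by an element of `AK`. -/
theorem exists_rep (K : Type) [Field K] [Algebra ℚ K] (N m : ℕ) (hm : m ≠ 0) (u : (FF K N)ˣ) :
    ∃ a b : AK K N, a ≠ 0 ∧ b ≠ 0 ∧ (u : FF K N) * (b : FF K N) ^ m = (a : FF K N) := by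
  obtain ⟨a0, ha0, s, hs, hs0, hu⟩ := exists_div K N (u : FF K N)
  have ha00 : a0 ≠ 0 := by
    rintro rfl
    rw [zero_div] at hu
    exact u.ne_zero hu
  obtain ⟨n, rfl⟩ : ∃ n, m = n + 1 := ⟨m - 1, by omega⟩
  refine ⟨⟨a0, ha0⟩ * ⟨s, hs⟩ ^ n, ⟨s, hs⟩, ?_, ?_, ?_⟩
  · refine mul_ne_zero ?_ (pow_ne_zero _ ?_)
    · exact fun h => ha00 (congrArg Subtype.val h)
    · exact fun h => hs0 (congrArg Subtype.val h)
  · exact fun h => hs0 (congrArg Subtype.val h)
  · show (u : FF K N) * s ^ (n + 1) = a0 * s ^ n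
    rw [hu, pow_succ]
    field_simp

/-- (BR4) the `m`-th roots of unity of `Mer` are constants. -/
theorem exists_const_of_pow_eq_one {m : ℕ} (hm : m ≠ 0) (z : Mer) (hz : z ^ m = 1) :
    ∃ ζ : ℂ, ζ ^ m = 1 ∧ z = algebraMap ℂ Mer ζ := by
  have : NeZero m := ⟨hm⟩
  have h1 := Complex.isPrimitiveRoot_exp m hm
  have h2 : IsPrimitiveRoot (algebraMap ℂ Mer (Complex.exp (2 * π * Complex.I / m))) m :=
    h1.map_of_injective (algebraMap ℂ Mer).injective
  obtain ⟨i, -, hi⟩ := h2.eq_pow_of_pow_eq_one hz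
  refine ⟨Complex.exp (2 * π * Complex.I / m) ^ i, ?_, ?_⟩
  · rw [← pow_mul, mul_comm i m, pow_mul, h1.pow_eq_one, one_pow]
  · rw [map_pow, hi]

/-- a nonzero holomorphic function has finite order at every point. -/
theorem bridge_order_ne_top (G : Holo) (hG : G ≠ 0) (τ : ℍ) :
    analyticOrderAt ((G : ℍ → ℂ) ∘ ofComplex) (τ : ℂ) ≠ ⊤ := by
  intro htop
  rw [analyticOrderAt_eq_top] at htop
  have hopen : IsOpen UHP := isOpen_upperHalfPlaneSet
  have hconn : IsPreconnected UHP :=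
    (Complex.isConnected_of_upperHalfPlane subset_rfl (by grind)).isPreconnected
  have hA : AnalyticOnNhd ℂ ((G : ℍ → ℂ) ∘ ofComplex) UHP :=
    (UpperHalfPlane.mdifferentiable_iff.mp G.2).analyticOnNhd hopen
  have h0 := hA.eqOn_zero_of_preconnected_of_eventuallyEq_zero hconn τ.im_pos htop
  apply hG
  apply Subtype.ext
  funext σ
  have := h0 σ.im_pos
  simp only [Function.comp_apply, ofComplex_apply] at this
  exact this

/-- (BR5) an element of `Mer` whose `m`-th power is holomorphic is holomorphic. -/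
theorem exists_holo_of_pow {m : ℕ} (hm : m ≠ 0) (x : Mer) (f : Holo) (hx : x ^ m = ofHolo f) :
    ∃ h : Holo, x = ofHolo h := by
  obtain ⟨p, q, hq, rfl⟩ := IsFractionRing.div_surjective (A := Holo) x
  have hq0 : q ≠ 0 := nonZeroDivisors.ne_zero hq
  have hq0' : ofHolo q ≠ 0 := (map_ne_zero_iff _ ofHolo_injective).2 hq0
  by_cases hp : p = 0
  · exact ⟨0, by rw [hp, map_zero, zero_div]⟩
  have hrel : p ^ m = f * q ^ m := by
    apply ofHolo_injective
    rw [map_pow, map_mul, map_pow, ← hx, div_pow, div_mul_cancel₀ _ (pow_ne_zero _ hq0')]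
  have hf0 : f ≠ 0 := by
    rintro rfl
    rw [zero_mul] at hrel
    exact hp (pow_eq_zero_iff hm |>.1 hrel)
  have hord : ∀ τ : ℍ, ∃ k : ℕ,
      analyticOrderAt ((f : ℍ → ℂ) ∘ ofComplex) (τ : ℂ) = ((m * k : ℕ) : ℕ∞) := by
    intro τ
    have hP := PointExp.analyticAt_comp_ofComplex p.2 τ
    have hQ := PointExp.analyticAt_comp_ofComplex q.2 τ
    have hF := PointExp.analyticAt_comp_ofComplex f.2 τ
    have hfun : ((p : ℍ → ℂ) ∘ ofComplex) ^ m
        = ((f : ℍ → ℂ) ∘ ofComplex) * ((q : ℍ → ℂ) ∘ ofComplex) ^ m := by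
      funext z
      have := congrFun (congrArg Subtype.val hrel) (ofComplex z)
      simpa using this
    have h1 := congrArg (fun g => analyticOrderAt g (τ : ℂ)) hfun
    rw [analyticOrderAt_pow hP, analyticOrderAt_mul hF (hQ.pow m), analyticOrderAt_pow hQ] at h1
    obtain ⟨a, ha⟩ := ENat.ne_top_iff_exists.1 (bridge_order_ne_top p hp τ)
    obtain ⟨b, hb⟩ := ENat.ne_top_iff_exists.1 (bridge_order_ne_top q hq0 τ)
    obtain ⟨c, hc⟩ := ENat.ne_top_iff_exists.1 (bridge_order_ne_top f hf0 τ)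
    rw [← ha, ← hb, ← hc] at h1
    have h2 : m * a = c + m * b := by
      have : ((m * a : ℕ) : ℕ∞) = ((c + m * b : ℕ) : ℕ∞) := by
        push_cast
        simpa [nsmul_eq_mul] using h1
      exact_mod_cast this
    refine ⟨a - b, ?_⟩
    rw [← hc]
    congr 1
    have hba : b ≤ a := by
      by_contra hlt
      have : m * a < m * b := Nat.mul_lt_mul_of_pos_left (not_le.1 hlt) (Nat.pos_of_ne_zero hm)
      omega
    rw [Nat.mul_sub]
    omega
  obtain ⟨h, hh, hpow⟩ := exists_root f.2 m hm hord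
  let H : Holo := ⟨h, hh⟩
  have hHf : H ^ m = f := by
    apply Subtype.ext
    funext τ
    exact hpow τ
  have hH0 : H ≠ 0 := by
    intro h0
    rw [h0, zero_pow hm] at hHf
    exact hf0 hHf.symm
  have hH0' : ofHolo H ≠ 0 := (map_ne_zero_iff _ ofHolo_injective).2 hH0
  have hone : (ofHolo p / ofHolo q / ofHolo H) ^ m = 1 := by
    rw [div_pow, hx, ← hHf, map_pow, div_self (pow_ne_zero _ hH0')]
  obtain ⟨ζ, -, hζ⟩ := exists_const_of_pow_eq_one hm _ hone
  refine ⟨algebraMap ℂ Holo ζ * H, ?_⟩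
  rw [map_mul, ← IsScalarTower.algebraMap_apply ℂ Holo Mer, ← hζ, div_mul_cancel₀ _ hH0']

/-- (BR6) `compSL` on holomorphic functions. -/
theorem compSL_ofHolo_eq_iff (γ : SL(2, ℤ)) (h : Holo) (c : ℂ) :
    compSL γ (ofHolo h) = algebraMap ℂ Mer c * ofHolo h ↔
      ∀ τ : ℍ, (h : ℍ → ℂ) (γ • τ) = c * (h : ℍ → ℂ) τ := by
  rw [compSL_ofHolo_apply, IsScalarTower.algebraMap_apply ℂ Holo Mer, ← map_mul,
    ofHolo_injective.eq_iff]
  constructor
  · intro H τ
    exact congrFun (congrArg Subtype.val H) τ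
  · intro H
    apply Subtype.ext
    funext τ
    exact H τ

end Fermat.Agent.GAL.Tors.Dict
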