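import Fermat.Agent.GAL.Tors.Dict.Conc
import Fermat.Agent.GAL.Tors.Dict.Bridge

/-!
# DICT (Da): a Kummer unit has a root in `Mer` whose character kills non hyperbolic elements
-/

set_option autoImplicit false
set_option linter.unusedSectionVars false

open UpperHalfPlane AlgebraicCurve ModularCurve CongruenceSubgroup
open scoped Manifold MatrixGroups

namespace Fermat.Agent.GAL.Tors.Dict

open Fermat.Agent.S24 Fermat.Agent.GAL Fermat.Agent.GAL.Tors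

variable (N : ℕ) [NeZero N]

/-- divisibility of orders passes from `u` to `a = u * b ^ m`. -/
theorem dvd_ord_rep {K : Type} [Field K] [Algebra ℚ K] {N m : ℕ} {u : (FF K N)ˣ} {a b : AK K N}
    (hb : b ≠ 0) (hab : (u : FF K N) * (b : FF K N) ^ m = (a : FF K N))
    (v : Place K (FF K N)) :
    (m : ℤ) ∣ v.ord (a : FF K N) ↔ (m : ℤ) ∣ v.ord (u : FF K N) := by
  have hb' : (b : FF K N) ≠ 0 := fun h => hb (Subtype.ext h)
  have h1 := v.ord_zpow (b : FF K N) (m : ℤ)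
  rw [zpow_natCast] at h1
  rw [← hab, v.ord_mul u.ne_zero (pow_ne_zero _ hb'), h1]
  exact (Int.dvd_add_left (dvd_mul_right _ _))

theorem exists_hasChar (m : ℕ) [NeZero m] (u : (FF ℂ N)ˣ) (hu : u ∈ kummerUnits ℂ (FF ℂ N) m) :
    ∃ χ : Gamma0 N →* rootsOfUnity m ℂ, HasChar N m u χ ∧ NeTrivial χ := by
  have hm : m ≠ 0 := NeZero.ne m
  obtain ⟨a, b, ha, hb, hab⟩ := exists_rep ℂ N m hm u
  have hdiv : ∀ v : Place ℂ (FF ℂ N), (m : ℤ) ∣ v.ord (a : FF ℂ N) := fun v =>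
    (dvd_ord_rep hb hab v).mpr (hu v)
  obtain ⟨h, hh, hpow⟩ := exists_root (mdifferentiable_PsiA ℂ (RingHom.id ℂ) N a) m hm
    (conc_orders ℂ (RingHom.id ℂ) N m a ha hdiv)
  have hPa : PsiA ℂ (RingHom.id ℂ) N a ≠ 0 := by
    intro h0
    exact ha (PsiA_injective ℂ (RingHom.id ℂ) N (by rw [h0, map_zero]))
  have h0 : h ≠ 0 := by
    intro h0
    apply hPa
    funext τ
    rw [← hpow τ, h0]
    simp [hm]
  obtain ⟨χ, hχ⟩ := exists_character (Gamma0 N) hh h0 (m := m) (fun γ hγ τ => by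
    rw [hpow, hpow]
    exact (realisation ℂ (RingHom.id ℂ) N).inv γ hγ a τ)
  obtain ⟨τ₁, hτ₁⟩ : ∃ τ₁, h τ₁ ≠ 0 := by
    by_contra hcon
    exact h0 (funext fun τ => by_contra fun h => hcon ⟨τ, h⟩)
  have hb' : (b : FF ℂ N) ≠ 0 := fun h => hb (Subtype.ext h)
  have hPb : PsiMer N (b : FF ℂ N) ≠ 0 := (map_ne_zero (PsiMer N)).mpr hb'
  refine ⟨χ, ⟨ofHolo ⟨h, hh⟩ / PsiMer N (b : FF ℂ N), ?_, fun γ => ?_⟩, fun γ hγ => ?_⟩
  · rw [div_pow, div_eq_iff (pow_ne_zero _ hPb), ← map_pow, ← map_pow, ← map_mul, hab, PsiMer_coe]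
    congr 1
    ext τ
    exact hpow τ
  · rw [map_div₀, compSL_PsiMer, (compSL_ofHolo_eq_iff _ _ _).mpr (fun τ => hχ γ τ), mul_div_assoc]
  · have h1 := conc_root_invariant ℂ (RingHom.id ℂ) N m a ha hdiv h hh hpow γ γ.2 hγ τ₁
    rw [hχ γ τ₁] at h1
    have h2 : (((χ γ : rootsOfUnity m ℂ) : ℂˣ) : ℂ) = 1 := by
      have := mul_right_cancel₀ hτ₁ (h1.trans (one_mul _).symm)
      exact this
    ext
    exact h2

end Fermat.Agent.GAL.Tors.Dict
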