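import Fermat.Agent.S24.CuspRing
import Fermat.Agent.S24.ConvLaurent

set_option autoImplicit false

/-!
# DICT leaf RC: periodic holomorphic functions of moderate growth have a `q_N`-expansion
-/

open UpperHalfPlane Filter Asymptotics
open scoped Manifold MatrixGroups Real

namespace Fermat.Agent.GAL.Tors.Dict

open Fermat.Agent.S24 Fermat.Agent.S24.CuspRing

/-- A periodic function on `ℍ`, extended by `ofComplex`, is periodic on `ℂ`. -/
theorem periodic_comp_ofComplex' {N : ℕ} {f : ℍ → ℂ}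
    (hper : ∀ τ : ℍ, f ((N : ℝ) +ᵥ τ) = f τ) : Function.Periodic (f ∘ ofComplex) (N : ℂ) := by
  intro w
  by_cases hw : 0 < Complex.im w
  · have hw' : 0 < Complex.im (w + (N : ℂ)) := by simpa using hw
    simp only [Function.comp_apply, ofComplex_apply_of_im_pos hw', ofComplex_apply_of_im_pos hw]
    rw [← hper ⟨w, hw⟩]
    congr 1
    ext
    simp [add_comm]
  · have hw' : Complex.im (w + (N : ℂ)) ≤ 0 := by simpa using hw
    simp only [Function.comp_apply, ofComplex_apply_of_im_nonpos hw',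
      ofComplex_apply_of_im_nonpos (not_lt.mp hw)]

/-- A holomorphic `N`-periodic function on `ℍ` of moderate growth lies in `Rcusp N`. -/
theorem mem_Rcusp_of_periodic {N : ℕ} [NeZero N] {f : ℍ → ℂ} (hf : MDiff f)
    (hper : ∀ τ : ℍ, f ((N : ℝ) +ᵥ τ) = f τ)
    (hgr : ∃ M : ℕ, f =O[atImInfty] fun τ : ℍ => Real.exp (2 * π * M * τ.im)) :
    f ∈ Rcusp N := by
  obtain ⟨M, hM⟩ := hgr
  have hN : (0 : ℝ) < (N : ℝ) := N_pos N
  set m : ℕ := N * M with hm
  let G : ℂ → ℂ := fun z => (f ∘ ofComplex) z * Function.Periodic.qParam (N : ℝ) z ^ m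
  have hGper : Function.Periodic G ((N : ℝ) : ℂ) := by
    intro z
    have h1 := periodic_comp_ofComplex' hper z
    have h2 : Function.Periodic.qParam (N : ℝ) (z + ((N : ℝ) : ℂ)) =
        Function.Periodic.qParam (N : ℝ) z := by
      have hN' : ((N : ℝ) : ℂ) ≠ 0 := by exact_mod_cast hN.ne'
      simp only [Function.Periodic.qParam]
      have : 2 * (π : ℂ) * Complex.I * (z + ((N : ℝ) : ℂ)) / ((N : ℝ) : ℂ) =
          2 * π * Complex.I * z / ((N : ℝ) : ℂ) + 2 * π * Complex.I := by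
        field_simp
      rw [this, Complex.exp_add, Complex.exp_two_pi_mul_I, mul_one]
    have h1' : (f ∘ ofComplex) (z + ((N : ℝ) : ℂ)) = (f ∘ ofComplex) z := by
      simpa using h1
    simp only [G]
    rw [h2, h1']
  have hGdiff : ∀ z : ℂ, 0 < z.im → DifferentiableAt ℂ G z := by
    intro z hz
    have h1 : DifferentiableAt ℂ (f ∘ ofComplex) z :=
      ((UpperHalfPlane.mdifferentiable_iff.mp hf) z hz).differentiableAt
        (isOpen_upperHalfPlaneSet.mem_nhds hz)
    exact h1.mul ((Function.Periodic.differentiable_qParam z).pow m)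
  have hGbd : BoundedAtFilter (comap Complex.im atTop) G := by
    have h1 : (f ∘ ofComplex) =O[comap Complex.im atTop]
        ((fun τ : ℍ => Real.exp (2 * π * M * τ.im)) ∘ ofComplex) :=
      hM.comp_tendsto tendsto_comap_im_ofComplex
    have h2 : (fun z : ℂ => Function.Periodic.qParam (N : ℝ) z ^ m) =O[comap Complex.im atTop]
        (fun z : ℂ => Real.exp (-(2 * π * M * z.im))) := by
      refine IsBigO.of_bound 1 (Eventually.of_forall fun z => ?_)
      rw [norm_pow, Function.Periodic.norm_qParam, ← Real.exp_nat_mul, one_mul,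
        Real.norm_of_nonneg (Real.exp_pos _).le]
      apply le_of_eq
      congr 1
      rw [hm]
      push_cast
      field_simp
    have h3 := h1.mul h2
    refine h3.trans_eventuallyEq ?_ |>.trans (isBigO_refl _ _)
    have hpos : ∀ᶠ z : ℂ in comap Complex.im atTop, 0 < z.im :=
      (tendsto_comap (f := Complex.im) (x := atTop)).eventually (eventually_gt_atTop 0)
    filter_upwards [hpos] with z hz
    simp only [Function.comp_apply, ofComplex_apply_of_im_pos hz, Pi.one_apply]
    rw [← Real.exp_add]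
    have : (⟨z, hz⟩ : ℍ).im = z.im := rfl
    rw [this, add_neg_cancel, Real.exp_zero]
  refine ⟨m, Function.Periodic.cuspFunction (N : ℝ) G, ⟨?_, ?_⟩⟩
  · intro q hq
    have hq1 : ‖q‖ < 1 := by simpa using hq
    apply DifferentiableAt.differentiableWithinAt
    by_cases hq0 : q = 0
    · rw [hq0]
      refine Function.Periodic.differentiableAt_cuspFunction_zero hN hGper ?_ hGbd
      have hpos : ∀ᶠ z : ℂ in comap Complex.im atTop, 0 < z.im :=
        (tendsto_comap (f := Complex.im) (x := atTop)).eventually (eventually_gt_atTop 0)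
      filter_upwards [hpos] with z hz using hGdiff z hz
    · have h1 := Function.Periodic.differentiableAt_cuspFunction hN.ne' hGper
        (hGdiff (Function.Periodic.invQParam N q)
          (Function.Periodic.im_invQParam_pos_of_norm_lt_one hN hq1 hq0))
      rwa [Function.Periodic.qParam_right_inv hN.ne' hq0] at h1
  · intro τ
    rw [wpar, Function.Periodic.eq_cuspFunction hN.ne' hGper]
    simp only [G, Function.comp_apply, ofComplex_apply]

/-- The expansion of an element of `Rcusp 1` converges on the punctured unit disc, to the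
function. -/
theorem isConv_Ecusp_one (f : Rcusp 1) :
    IsConv (Ecusp 1 f) ∧
      ∀ τ : ℍ, evalAt (Function.Periodic.qParam 1 (τ : ℂ)) (Ecusp 1 f) = f.1 τ := by
  obtain ⟨m, g, h⟩ := mem_Rcusp.mp f.2
  rw [Ecusp_eq h, ser]
  refine ⟨(isConv_single _ _).mul (isConv_taylor0 h.diff), fun τ => ?_⟩
  have hw : wpar 1 τ = Function.Periodic.qParam 1 (τ : ℂ) := by
    rw [wpar, Nat.cast_one]
  have h0 : Function.Periodic.qParam 1 (τ : ℂ) ≠ 0 := Function.Periodic.qParam_ne_zero _
  have h1 : ‖Function.Periodic.qParam 1 (τ : ℂ)‖ < 1 := by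
    rw [← hw]; exact norm_wpar_lt_one 1 τ
  rw [evalAt_mul (isConv_single _ _) (isConv_taylor0 h.diff) h0 h1, evalAt_single,
    evalAt_taylor0 h.diff h1, ← hw, ← h.eq τ, one_mul, zpow_neg, zpow_natCast]
  field_simp [wpar_ne_zero 1 τ]

/-- Effect of `τ ↦ τ + n` on the expansion. -/
theorem Ecusp_coeff_vadd {N : ℕ} [NeZero N] (f f' : Rcusp N) (n : ℤ)
    (h : ∀ τ : ℍ, f'.1 τ = f.1 ((n : ℝ) +ᵥ τ)) (k : ℤ) :
    (Ecusp N f').coeff k = Complex.exp (2 * π * Complex.I * n * k / N) * (Ecusp N f).coeff k := by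
  have hφ : ∀ τ : ℍ, ((((n : ℝ) +ᵥ τ : ℍ)) : ℂ) = (((1 : ℕ) : ℂ) * τ + ((n : ℤ) : ℂ)) / (1 : ℕ) := by
    intro τ
    rw [UpperHalfPlane.coe_vadd]
    push_cast
    ring
  have hf' : f' = ⟨f.1 ∘ (fun τ => (n : ℝ) +ᵥ τ), by
      have : f.1 ∘ (fun τ => (n : ℝ) +ᵥ τ) = f'.1 := by funext τ; exact (h τ).symm
      rw [this]; exact f'.2⟩ := by
    apply Subtype.ext
    funext τ
    exact h τ
  rw [hf', Ecusp_comp_affine (M := N) (N := N) (a := 1) (d := 1) (e := 1) (b := n) one_ne_zero
    (by ring) f hφ, ModularCurve.qExpand_one_apply, Embed.twist_coeff, one_mul, xi,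
    ← Complex.exp_int_mul]
  congr 2
  ring

/-- `exp (2 π i a / N) = 1` iff `N ∣ a`. -/
theorem exp_eq_one_iff_dvd {N : ℕ} [NeZero N] (a : ℤ) :
    Complex.exp (2 * π * Complex.I * a / N) = 1 ↔ (N : ℤ) ∣ a := by
  have hN : (N : ℂ) ≠ 0 := Nat.cast_ne_zero.mpr (NeZero.ne N)
  rw [Complex.exp_eq_one_iff]
  constructor
  · rintro ⟨n, hn⟩
    refine ⟨n, ?_⟩
    have h2 : (2 * π * Complex.I : ℂ) ≠ 0 := Complex.two_pi_I_ne_zero
    have h3 : (a : ℂ) = N * n := by
      field_simp at hn
      exact hn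
    exact_mod_cast h3
  · rintro ⟨n, rfl⟩
    refine ⟨n, ?_⟩
    push_cast
    field_simp

/-- Change of level. -/
theorem mem_Rcusp_mul {N m : ℕ} [NeZero N] [NeZero m] {f : ℍ → ℂ} (hf : f ∈ Rcusp N) :
    f ∈ Rcusp (N * m) := by
  have := comp_affine_mem (M := N) (N := N * m) (a := 1) (d := 1) (e := m) (b := 0) (NeZero.ne N)
    (NeZero.ne (N * m)) one_ne_zero (NeZero.ne m) (by ring) hf (φ := id) (fun τ => by simp)
  simpa using this

theorem order_qExpand' {R : Type*} [CommRing R] (m : ℕ) [NeZero m] (s : LaurentSeries R) :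
    (ModularCurve.qExpand R m s).order = m * s.order := by
  have hm : (0 : ℤ) < m := by exact_mod_cast Nat.pos_of_ne_zero (NeZero.ne m)
  by_cases hs : s = 0
  · subst hs; simp
  have hs' : ModularCurve.qExpand R m s ≠ 0 := fun h =>
    hs (ModularCurve.qExpand_injective (R := R) (N := m) (by rw [h, map_zero]))
  apply le_antisymm
  · apply HahnSeries.order_le_of_coeff_ne_zero
    rw [ModularCurve.qExpand_coeff_mul]
    exact HahnSeries.coeff_order_eq_zero.not.mpr hs
  · have h1 := HahnSeries.coeff_order_eq_zero.not.mpr hs'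
    by_cases hd : (m : ℤ) ∣ (ModularCurve.qExpand R m s).order
    · obtain ⟨k, hk⟩ := hd
      rw [hk, ModularCurve.qExpand_coeff_mul] at h1
      rw [hk]
      exact mul_le_mul_of_nonneg_left (HahnSeries.order_le_of_coeff_ne_zero h1) hm.le
    · exact absurd (ModularCurve.qExpand_coeff_of_not_dvd m s hd) h1

theorem order_Ecusp_mul {N m : ℕ} [NeZero N] [NeZero m] {f : ℍ → ℂ} (hf : f ∈ Rcusp N)
    (hf' : f ∈ Rcusp (N * m)) :
    (Ecusp (N * m) ⟨f, hf'⟩).order = m * (Ecusp N ⟨f, hf⟩).order := by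
  have h := Ecusp_comp_affine (M := N) (N := N * m) (a := 1) (d := 1) (e := m) (b := 0) one_ne_zero
    (by ring) ⟨f, hf⟩ (φ := id) (fun τ => by simp) (by simpa using hf')
  have e1 : (⟨f, hf'⟩ : Rcusp (N * m)) = ⟨(⟨f, hf⟩ : Rcusp N).1 ∘ id, by simpa using hf'⟩ := rfl
  rw [e1, h, order_qExpand']
  congr 1
  have e2 : Embed.twist (xi 0 (1 * N)) (xi_ne_zero _ _) (Ecusp N ⟨f, hf⟩) = Ecusp N ⟨f, hf⟩ := by
    ext k
    rw [Embed.twist_coeff, xi]
    simp
  rw [e2]

end Fermat.Agent.GAL.Tors.Dict
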