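import Fermat.Agent.GAL.Tors.Dict.Degree
import Fermat.Agent.GAL.Tors.Dict.RC
import Fermat.Agent.GAL.Tors.HoloRoot

/-!
# DICT leaf IF: invariant holomorphic functions of moderate growth are modular functions
-/

set_option autoImplicit false
set_option linter.unusedSectionVars false

open UpperHalfPlane AlgebraicCurve ModularCurve CongruenceSubgroup Filter Asymptotics
open scoped Manifold MatrixGroups Real

noncomputable section

namespace Fermat.Agent.GAL.Tors.Dict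

open Fermat.Agent.S24 Fermat.Agent.GAL Fermat.Agent.GAL.Tors

/-- (IF1) A holomorphic `Γ₀(N)`-invariant function all of whose `SL₂(ℤ)`-translates have moderate
growth is the sum of a convergent series lying in `FF ℂ N`. -/
theorem exists_mem_FF_of_invariant (N : ℕ) [NeZero N] (h : ℍ → ℂ) (hh : MDiff h)
    (hinv : ∀ γ ∈ Gamma0 N, ∀ τ, h (γ • τ) = h τ)
    (hgr : ∀ g : SL(2, ℤ), ∃ M : ℕ,
      (fun τ : ℍ => h (g • τ)) =O[atImInfty] fun τ : ℍ => Real.exp (2 * π * M * τ.im)) :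
    ∃ y : FF ℂ N, IsConv (y : LaurentSeries ℂ) ∧
      ∀ τ : ℍ, evalAt (Function.Periodic.qParam 1 (τ : ℂ)) (y : LaurentSeries ℂ) = h τ := by
  have hper : ∀ τ : ℍ, h (((1 : ℕ) : ℝ) +ᵥ τ) = h τ := by
    intro τ
    have hT : ModularGroup.T ∈ Gamma0 N := by
      rw [Gamma0_mem]
      simp [ModularGroup.T]
    have := hinv ModularGroup.T hT τ
    rwa [UpperHalfPlane.modular_T_smul, ← Nat.cast_one (R := ℝ)] at this
  have hgr1 : ∃ M : ℕ, h =O[atImInfty] fun τ : ℍ => Real.exp (2 * π * M * τ.im) := by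
    simpa using hgr 1
  have hmem : h ∈ CuspRing.Rcusp 1 := mem_Rcusp_of_periodic hh hper hgr1
  obtain ⟨hconv, heval⟩ := isConv_Ecusp_one ⟨h, hmem⟩
  have hPsi : ∀ τ : ℍ, PsiFun (RingHom.id ℂ) (CuspRing.Ecusp 1 ⟨h, hmem⟩) τ = h τ := by
    intro τ
    rw [PsiFun, coeffMap_id]
    exact heval τ
  have hgood : CuspRing.Ecusp 1 ⟨h, hmem⟩ ∈ goodSub ℂ (RingHom.id ℂ) N := by
    refine ⟨by rw [coeffMap_id]; exact hconv, fun γ hγ τ => ?_, fun g => ?_⟩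
    · rw [hPsi, hPsi, hinv γ hγ]
    · simp only [hPsi]
      exact ⟨mdiff_comp_smul hh g, hgr g⟩
  exact ⟨⟨_, goodSub_le ℂ (RingHom.id ℂ) N hgood⟩, hconv, heval⟩

/-- (IF2) growth of a root. -/
theorem isBigO_of_pow {m : ℕ} (hm : m ≠ 0) {h f : ℍ → ℂ} (hpow : ∀ τ, h τ ^ m = f τ)
    (hf : ∃ M : ℕ, f =O[atImInfty] fun τ : ℍ => Real.exp (2 * π * M * τ.im)) :
    ∃ M : ℕ, h =O[atImInfty] fun τ : ℍ => Real.exp (2 * π * M * τ.im) := by
  obtain ⟨M, hM⟩ := hf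
  refine ⟨M, ?_⟩
  obtain ⟨C, hC⟩ := hM.bound
  refine IsBigO.of_bound (max 1 C) ?_
  filter_upwards [hC] with τ hτ
  have hE : (1 : ℝ) ≤ ‖Real.exp (2 * π * M * τ.im)‖ := by
    rw [Real.norm_of_nonneg (Real.exp_pos _).le]
    apply Real.one_le_exp
    have := τ.im_pos
    positivity
  have hE0 : (0 : ℝ) ≤ ‖Real.exp (2 * π * M * τ.im)‖ := norm_nonneg _
  rcases le_or_gt ‖h τ‖ 1 with h1 | h1
  · calc ‖h τ‖ ≤ 1 := h1
      _ = 1 * 1 := (one_mul 1).symm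
      _ ≤ max 1 C * ‖Real.exp (2 * π * M * τ.im)‖ :=
        mul_le_mul (le_max_left _ _) hE zero_le_one (le_trans zero_le_one (le_max_left _ _))
  · calc ‖h τ‖ ≤ ‖h τ‖ ^ m := le_self_pow₀ h1.le hm
      _ = ‖f τ‖ := by rw [← norm_pow, hpow]
      _ ≤ C * ‖Real.exp (2 * π * M * τ.im)‖ := hτ
      _ ≤ max 1 C * ‖Real.exp (2 * π * M * τ.im)‖ :=
        mul_le_mul_of_nonneg_right (le_max_right _ _) hE0

/-- (IF3) growth of the translates of the elements of `AK`. -/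
theorem isBigO_PsiA_smul (K : Type) [Field K] [Algebra ℚ K] (ι : K →+* ℂ) (N : ℕ) [NeZero N]
    (a : AK K N) (g : SL(2, ℤ)) : ∃ M : ℕ,
      (fun τ : ℍ => PsiA K ι N a (g • τ)) =O[atImInfty]
        fun τ : ℍ => Real.exp (2 * π * M * τ.im) := by
  have h1 := translate_mem_Rcusp K ι N g⁻¹ a
  have h2 : Embed.translate (PsiA K ι N) g⁻¹ a = fun τ : ℍ => PsiA K ι N a (g • τ) := by
    funext τ
    rw [Embed.translate_apply, inv_inv]
  rw [h2] at h1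
  exact CuspRing.isBigO_of_mem h1

/-- (IF4) an invariant holomorphic `m`-th root of an element of `AK ℂ N` lies in `FF ℂ N`. -/
theorem exists_pow_eq_of_invariant_root (N : ℕ) [NeZero N] {m : ℕ} (hm : m ≠ 0) (a : AK ℂ N)
    (h : ℍ → ℂ) (hh : MDiff h) (hpow : ∀ τ, h τ ^ m = PsiA ℂ (RingHom.id ℂ) N a τ)
    (hinv : ∀ γ ∈ Gamma0 N, ∀ τ, h (γ • τ) = h τ) :
    ∃ y : FF ℂ N, y ^ m = (a : FF ℂ N) := by
  obtain ⟨y, hconv, heval⟩ := exists_mem_FF_of_invariant N h hh hinv fun g =>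
    isBigO_of_pow hm (h := fun τ : ℍ => h (g • τ))
      (f := fun τ : ℍ => PsiA ℂ (RingHom.id ℂ) N a (g • τ)) (fun τ => hpow (g • τ))
      (isBigO_PsiA_smul ℂ (RingHom.id ℂ) N a g)
  refine ⟨y, Subtype.ext ?_⟩
  have ha := isConv_coe ℂ (RingHom.id ℂ) N a
  rw [coeffMap_id] at ha
  show ((y : LaurentSeries ℂ)) ^ m = ((a : FF ℂ N) : LaurentSeries ℂ)
  refine eq_of_evalAt_eq (hconv.pow m) ha fun q hq hq1 => ?_
  obtain ⟨τ, rfl⟩ := exists_qParam_eq hq hq1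
  rw [evalAt_pow hconv hq hq1, heval, hpow, PsiA_eq_evalAt, coeffMap_id]

end Fermat.Agent.GAL.Tors.Dict
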