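import Fermat.Agent.GAL.Tors.Dict.Bridge
import Fermat.Agent.GAL.Tors.Dict.InvF

/-!
# DICT (Dc): trivial character => `m`-th power
-/

set_option autoImplicit false
set_option linter.unusedSectionVars false

open UpperHalfPlane AlgebraicCurve ModularCurve CongruenceSubgroup
open scoped Manifold MatrixGroups

namespace Fermat.Agent.GAL.Tors.Dict

open Fermat.Agent.S24 Fermat.Agent.GAL Fermat.Agent.GAL.Tors

variable (N : ℕ) [NeZero N]

theorem exists_root_of_hasChar_one (m : ℕ) [NeZero m] (u : (FF ℂ N)ˣ) (h : HasChar N m u 1) :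
    ∃ y : (FF ℂ N)ˣ, y ^ m = u := by
  have hm : m ≠ 0 := NeZero.ne m
  obtain ⟨x, hx, hinv⟩ := h
  obtain ⟨a, b, ha, hb, hab⟩ := exists_rep ℂ N m hm u
  have hb' : (b : FF ℂ N) ≠ 0 := fun h => hb (Subtype.ext h)
  -- the root of `a`
  have hx' : (x * PsiMer N (b : FF ℂ N)) ^ m = ofHolo (PsiH N a) := by
    rw [mul_pow, hx, ← map_pow, ← map_mul, hab, PsiMer_coe]
  obtain ⟨h₀, hh₀⟩ := exists_holo_of_pow hm _ _ hx'
  have hpow : ∀ τ, (h₀ : ℍ → ℂ) τ ^ m = PsiA ℂ (RingHom.id ℂ) N a τ := by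
    intro τ
    rw [hh₀, ← map_pow] at hx'
    have := ofHolo_injective hx'
    exact congrFun (congrArg Subtype.val this) τ
  have hinv₀ : ∀ γ ∈ Gamma0 N, ∀ τ, (h₀ : ℍ → ℂ) (γ • τ) = (h₀ : ℍ → ℂ) τ := by
    intro γ hγ τ
    have h1 : compSL γ (ofHolo h₀) = algebraMap ℂ Mer 1 * ofHolo h₀ := by
      rw [← hh₀, map_mul, compSL_PsiMer N ⟨γ, hγ⟩, hinv ⟨γ, hγ⟩]
      simp
    have := (compSL_ofHolo_eq_iff γ h₀ 1).mp h1 τ
    rwa [one_mul] at this
  obtain ⟨y, hy⟩ := exists_pow_eq_of_invariant_root N hm a h₀ h₀.2 hpow hinv₀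
  have hy0 : y ≠ 0 := by
    rintro rfl
    rw [zero_pow hm] at hy
    exact ha (Subtype.ext hy.symm)
  refine ⟨Units.mk0 (y / (b : FF ℂ N)) (div_ne_zero hy0 hb'), ?_⟩
  ext
  rw [Units.val_pow_eq_pow_val, Units.val_mk0, div_pow, hy, ← hab,
    mul_div_assoc, div_self (pow_ne_zero _ hb'), mul_one]

end Fermat.Agent.GAL.Tors.Dict
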