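import Fermat.Agent.GAL.Tors.Mer
import Fermat.Agent.GAL.Tors.TwistedEis
import Fermat.Agent.S24.JInvariant
import Fermat.Agent.S24.JLocal

/-!
# DICT leaf EI: a holomorphic function with a given character
-/

set_option autoImplicit false
set_option linter.unusedSectionVars false

open UpperHalfPlane AlgebraicCurve ModularCurve CongruenceSubgroup Filter Asymptotics
open scoped Manifold MatrixGroups Real ModularForm

noncomputable section

namespace Fermat.Agent.GAL.Tors.Dict

open Fermat.Agent.S24 Fermat.Agent.GAL Fermat.Agent.GAL.Tors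

/-- `1 / Δ = O(exp (2 π im τ))`. -/
theorem Eis_isBigO_inv_discriminant :
    (fun τ : ℍ => (ModularForm.discriminant τ)⁻¹) =O[atImInfty]
      fun τ : ℍ => Real.exp (2 * π * τ.im) := by
  have hΔ : (fun τ : ℍ => (ModularForm.discriminant τ)⁻¹) =O[atImInfty]
      fun τ : ℍ => (Real.exp (-2 * Real.pi * τ.im))⁻¹ := by
    refine ModularForm.exp_isBigO_discriminant.inv_rev ?_
    exact Eventually.of_forall fun τ h => absurd h (Real.exp_pos _).ne'
  refine hΔ.congr_right fun τ => ?_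
  rw [← Real.exp_neg]
  congr 1
  ring

/-- (EI) For every character `χ` of `Γ₀(N)` with values in the `m`-th roots of unity killing the
parabolic elements and `±1` there is a non zero holomorphic function on `ℍ` transforming by `χ`, all of
whose translates have moderate growth (`h = E_{12,χ} / Δ`). -/
theorem exists_holo_of_char (N : ℕ) [NeZero N] (m : ℕ) [NeZero m]
    (χ : Gamma0 N →* rootsOfUnity m ℂ) (hχ : NeTrivial χ) :
    ∃ h : ℍ → ℂ, MDiff h ∧ h ≠ 0 ∧
      (∀ (γ : Gamma0 N) (τ : ℍ), h ((γ : SL(2, ℤ)) • τ) = (((χ γ : rootsOfUnity m ℂ) : ℂˣ) : ℂ) * h τ) ∧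
      ∀ g : SL(2, ℤ), ∃ M : ℕ,
        (fun τ : ℍ => h (g • τ)) =O[atImInfty] fun τ : ℍ => Real.exp (2 * π * M * τ.im) := by
  set χ' : Gamma0 N →* ℂˣ := (rootsOfUnity m ℂ).subtype.comp χ with hχ'
  have hχ'val : ∀ γ, χ' γ = ((χ γ : rootsOfUnity m ℂ) : ℂˣ) := fun _ => rfl
  have hnorm : ∀ γ, ‖((χ' γ : ℂˣ) : ℂ)‖ = 1 := by
    refine TwistedEis.norm_eq_one_of_pow (m := m) (Nat.pos_of_ne_zero (NeZero.ne m)) fun γ => ?_
    rw [hχ'val]
    exact (mem_rootsOfUnity _ _).1 (χ γ).2
  have hinf : ∀ γ : Gamma0 N, (γ : SL(2, ℤ)) 1 0 = 0 → χ' γ = 1 := by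
    intro γ hγ
    rw [hχ'val, hχ γ ?_]
    · rfl
    · have hdet := Matrix.SpecialLinearGroup.det_coe (γ : SL(2, ℤ))
      rw [Matrix.det_fin_two] at hdet
      have h' : ((γ : SL(2, ℤ)) : Matrix (Fin 2) (Fin 2) ℤ) 1 0 = 0 := hγ
      rw [h', mul_zero, sub_zero] at hdet
      rw [Matrix.trace_fin_two]
      rcases Int.eq_one_or_neg_one_of_mul_eq_one' hdet with ⟨h1, h2⟩ | ⟨h1, h2⟩ <;>
        rw [h1, h2] <;> norm_num
  have hinf' : TwistedEis.TrivAtInfty (Gamma0 N) χ' := fun γ h0 _ => hinf γ h0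
  obtain ⟨w, hw, hT⟩ := TwistedEis.exists_T_zpow_mem (Gamma0 N)
  have hne := TwistedEis.twEis_ne_zero (k := 12) hnorm hinf (by norm_num) (by decide) hw hT
  set E : ℍ → ℂ := TwistedEis.twEis (Gamma0 N) χ' 12 with hE
  have hΔ0 : ∀ τ : ℍ, ModularForm.discriminant τ ≠ 0 := ModularForm.discriminant_ne_zero
  refine ⟨fun τ => E τ / ModularForm.discriminant τ, ?_, ?_, ?_, ?_⟩
  · exact (TwistedEis.mdifferentiable_twEis hnorm (by norm_num)).div JLocal.mdifferentiable_Δ hΔ0
  · intro h0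
    apply hne
    funext τ
    have := congrFun h0 τ
    simp only [Pi.zero_apply, div_eq_zero_iff, hΔ0 τ, or_false] at this
    exact this
  · intro γ τ
    simp only
    rw [hE, TwistedEis.twEis_smul hinf' 12 γ τ, JInvariant.discriminant_smul, hχ'val]
    have hd : denom (γ : SL(2, ℤ)) τ ^ (12 : ℤ) ≠ 0 := zpow_ne_zero _ (denom_ne_zero _ τ)
    field_simp
  · intro g
    refine ⟨1, ?_⟩
    have hb : IsBoundedAtImInfty (E ∣[(12 : ℤ)] g) :=
      TwistedEis.isBoundedAtImInfty_twEis_slash hnorm (by norm_num) g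
    have hb' : (E ∣[(12 : ℤ)] g) =O[atImInfty] fun _ : ℍ => (1 : ℝ) := by
      have := hb
      rw [IsBoundedAtImInfty, BoundedAtFilter] at this
      exact this
    have h1 := hb'.mul Eis_isBigO_inv_discriminant
    refine h1.congr (fun τ => ?_) (fun τ => ?_)
    · show _ = E (g • τ) / ModularForm.discriminant (g • τ)
      rw [ModularForm.SL_slash_apply, JInvariant.discriminant_smul]
      have hd : denom g τ ≠ 0 := denom_ne_zero _ τ
      rw [zpow_neg]
      field_simp
    · simp
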