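import Fermat.Agent.GAL.Tors.Dict.Conc
import Fermat.Agent.GAL.Tors.Dict.Da
import Fermat.Agent.GAL.Tors.Dict.Bridge
import Fermat.Agent.GAL.Tors.Dict.InvF
import Fermat.Agent.GAL.Tors.Dict.Eis

/-!
# DICT (Dd): every character killing the non hyperbolic elements occurs
-/

set_option autoImplicit false
set_option linter.unusedSectionVars false

open UpperHalfPlane AlgebraicCurve ModularCurve CongruenceSubgroup Filter Asymptotics
open scoped Manifold MatrixGroups Real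

namespace Fermat.Agent.GAL.Tors.Dict

open Fermat.Agent.S24 Fermat.Agent.GAL Fermat.Agent.GAL.Tors

variable (N : ℕ) [NeZero N]

theorem exists_kummerUnit_of_neTrivial (m : ℕ) [NeZero m] (χ : Gamma0 N →* rootsOfUnity m ℂ)
    (hχ : NeTrivial χ) : ∃ u ∈ kummerUnits ℂ (FF ℂ N) m, HasChar N m u χ := by
  have hm : m ≠ 0 := NeZero.ne m
  obtain ⟨h, hh, h0, hchar, hgr⟩ := exists_holo_of_char N m χ hχ
  have hχm : ∀ γ : Gamma0 N, (((χ γ : rootsOfUnity m ℂ) : ℂˣ) : ℂ) ^ m = 1 := by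
    intro γ
    have := (χ γ).2
    rw [_root_.mem_rootsOfUnity] at this
    rw [← Units.val_pow_eq_pow_val, this, Units.val_one]
  -- `h ^ m` is a modular function
  obtain ⟨u₀, hu₀c, hu₀⟩ := exists_mem_FF_of_invariant N (fun τ => h τ ^ m) (hh.pow m)
    (fun γ hγ τ => by
      show h (γ • τ) ^ m = h τ ^ m
      rw [hchar ⟨γ, hγ⟩ τ, mul_pow, hχm, one_mul])
    (fun g => by
      obtain ⟨M, hM⟩ := hgr g
      refine ⟨m * M, ?_⟩
      refine (hM.pow m).congr_right fun τ => ?_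
      rw [← Real.exp_nat_mul]
      push_cast
      ring_nf)
  obtain ⟨τ₁, hτ₁⟩ : ∃ τ₁, h τ₁ ≠ 0 := by
    by_contra hcon
    exact h0 (funext fun τ => by_contra fun h => hcon ⟨τ, h⟩)
  have hu₀0 : u₀ ≠ 0 := by
    rintro rfl
    have := hu₀ τ₁
    rw [ZeroMemClass.coe_zero, evalAt_zero] at this
    exact pow_ne_zero m hτ₁ this.symm
  let u : (FF ℂ N)ˣ := Units.mk0 u₀ hu₀0
  have hPu : PsiMer N (u : FF ℂ N) = ofHolo ⟨h, hh⟩ ^ m := by
    rw [Units.val_mk0, PsiMer_of_isConv N u₀ hu₀c, ← map_pow]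
    congr 1
    ext τ
    exact hu₀ τ
  refine ⟨u, ?_, ⟨ofHolo ⟨h, hh⟩, hPu.symm, fun γ =>
    (compSL_ofHolo_eq_iff _ _ _).mpr (fun τ => hchar γ τ)⟩⟩
  -- Kummer unit
  obtain ⟨a, b, ha, hb, hab⟩ := exists_rep ℂ N m hm u
  intro v
  rw [← dvd_ord_rep hb hab v]
  have hroot : ∀ τ, (h τ * PsiA ℂ (RingHom.id ℂ) N b τ) ^ m = PsiA ℂ (RingHom.id ℂ) N a τ := by
    intro τ
    have h1 : ofHolo (PsiH N a) = ofHolo ((⟨h, hh⟩ : Holo) ^ m * PsiH N b ^ m) := by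
      rw [← PsiMer_coe, ← hab, map_mul, map_pow, hPu, PsiMer_coe, map_mul, map_pow, map_pow]
    have h2 := congrFun (congrArg Subtype.val (ofHolo_injective h1)) τ
    rw [mul_pow]
    exact h2.symm
  refine conc_dvd_ord ℂ (RingHom.id ℂ) N m a ha (fun τ => h τ * PsiA ℂ (RingHom.id ℂ) N b τ)
    (hh.mul (mdifferentiable_PsiA ℂ (RingHom.id ℂ) N b)) hroot ?_ v
  intro γ hγ htr τ
  show h (γ • τ) * PsiA ℂ (RingHom.id ℂ) N b (γ • τ) = _
  have hb2 : PsiA ℂ (RingHom.id ℂ) N b (γ • τ) = PsiA ℂ (RingHom.id ℂ) N b τ :=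
    (realisation ℂ (RingHom.id ℂ) N).inv γ hγ b τ
  rw [hchar ⟨γ, hγ⟩ τ, hχ ⟨γ, hγ⟩ htr, hb2]
  simp

end Fermat.Agent.GAL.Tors.Dict
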