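import Fermat.Agent.S24.EmbedPoint
import Fermat.Agent.S24.EmbedCusp

set_option autoImplicit false
set_option linter.unusedSectionVars false

/-!
# DICT: the embeddings of `F = Frac A` into Laurent series attached to a realisation
(sorry-free definitions)
-/

open UpperHalfPlane
open scoped Manifold MatrixGroups

namespace Fermat.Agent.GAL.Tors.Dict

open Fermat.Agent.S24 Fermat.Agent.S24.Embed Fermat.Agent.S24.EmbedPoint
  Fermat.Agent.S24.EmbedCusp Fermat.Agent.S24.CuspRing Fermat.Agent.S24.PointExp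

variable {k A : Type*} (F : Type*) [Field k] [CommRing A] [Field F] [Algebra k A] [Algebra A F]
  [Algebra k F] [IsScalarTower k A F] [IsFractionRing A F]
variable {Γ : Subgroup SL(2, ℤ)} (P : Realisation k A Γ)

/-- The data at the point `τ₀`. -/
noncomputable abbrev ptData (τ₀ : ℍ) : Data A SL(2, ℤ) ℍ :=
  pointData Γ P.Ψ P.inj P.inv P.hol τ₀

/-- Expansion at `τ₀` of `f ∘ g⁻¹`. -/
noncomputable def ptEmb (τ₀ : ℍ) (g : SL(2, ℤ)) : F →+* LaurentSeries ℂ :=
  (ptData P τ₀).sigma' F g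

theorem ptEmb_algebraMap (τ₀ : ℍ) (g : SL(2, ℤ)) (a : A) :
    ptEmb F P τ₀ g (algebraMap A F a) =
      pointE τ₀ ⟨translate P.Ψ g a, mdiff_comp_smul (P.hol a) g⁻¹⟩ :=
  (ptData P τ₀).sigma'_algebraMap g a

theorem sigma_mk_eq_ptEmb (τ₀ : ℍ) (g : SL(2, ℤ)) :
    (ptData P τ₀).sigma F (g : SL(2, ℤ) ⧸ Γ) = ptEmb F P τ₀ g :=
  (ptData P τ₀).sigma_mk g

/-- Expansion at the cusp `∞` (in `q_N`) of `f ∘ g⁻¹`. -/
noncomputable def cuspEmb (N : ℕ) [NeZero N]
    (hc : ∀ (g : SL(2, ℤ)) (a : A), translate P.Ψ g a ∈ Rcusp N) (g : SL(2, ℤ)) :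
    F →+* LaurentSeries ℂ :=
  (cuspData P N hc).sigma' F g

theorem cuspEmb_algebraMap (N : ℕ) [NeZero N]
    (hc : ∀ (g : SL(2, ℤ)) (a : A), translate P.Ψ g a ∈ Rcusp N) (g : SL(2, ℤ)) (a : A) :
    cuspEmb F P N hc g (algebraMap A F a) = Ecusp N ⟨translate P.Ψ g a, hc g a⟩ :=
  (cuspData P N hc).sigma'_algebraMap g a

theorem sigma_mk_eq_cuspEmb (N : ℕ) [NeZero N]
    (hc : ∀ (g : SL(2, ℤ)) (a : A), translate P.Ψ g a ∈ Rcusp N) (g : SL(2, ℤ)) :
    (cuspData P N hc).sigma F (g : SL(2, ℤ) ⧸ Γ) = cuspEmb F P N hc g :=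
  (cuspData P N hc).sigma_mk g

/-- The element `j` of `F`. -/
noncomputable abbrev jOf : F := algebraMap A F P.jA

/-- The local family at a point `τ₀`, with explicit embeddings
(same proof as `S24.EmbedPoint.nonempty_localFamily`). -/
noncomputable def ptFamily (c : k) (τ₀ : ℍ) (e₀ : ℕ)
    (hord : analyticOrderAt (fun w : ℂ => JLocal.kleinJ (ofComplex w) - P.ι c) (τ₀ : ℂ) = e₀)
    (g₀ : SL(2, ℤ)) (hg₀ : g₀ • τ₀ = τ₀) (hprim : IsPrimitiveRoot (lam τ₀ g₀⁻¹) e₀) :
    LocalFamily k F (SL(2, ℤ) ⧸ Γ) SL(2, ℤ) (jOf F P - algebraMap k F c) e₀ g₀ where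
  σ := (ptData P τ₀).sigma F
  inj := (ptData P τ₀).sigma_injective P.haN
  const := by
    intro i i' a
    rw [IsScalarTower.algebraMap_apply k A F]
    exact (ptData P τ₀).sigma_algebraMap_of_invariant (fun g τ => by
      show P.Ψ _ _ = P.Ψ _ _
      rw [P.const, P.const]) i i'
  agree := by
    intro i i'
    have hx : jOf F P - algebraMap k F c = algebraMap A F (P.jA - algebraMap k A c) := by
      rw [map_sub, ← IsScalarTower.algebraMap_apply]
    have hinvx : ∀ (g : SL(2, ℤ)) τ, P.Ψ (P.jA - algebraMap k A c) (g • τ) =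
        P.Ψ (P.jA - algebraMap k A c) τ := by
      intro g τ
      simp only [map_sub, Pi.sub_apply, P.hjA, P.const, JLocal.kleinJ_smul]
    rw [hx]
    exact (ptData P τ₀).sigma_algebraMap_of_invariant hinvx i i'
  order := by
    intro i
    have hx : jOf F P - algebraMap k F c = algebraMap A F (P.jA - algebraMap k A c) := by
      rw [map_sub, ← IsScalarTower.algebraMap_apply]
    have hinvx : ∀ (g : SL(2, ℤ)) τ, P.Ψ (P.jA - algebraMap k A c) (g • τ) =
        P.Ψ (P.jA - algebraMap k A c) τ := by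
      intro g τ
      simp only [map_sub, Pi.sub_apply, P.hjA, P.const, JLocal.kleinJ_smul]
    induction i using QuotientGroup.induction_on with | H g => ?_
    rw [hx, (ptData P τ₀).sigma_mk_algebraMap]
    apply order_pointE
    rw [← hord]
    congr 1
    funext w
    simp only [Function.comp_apply, Embed.translate_apply]
    show P.Ψ _ _ = _
    rw [hinvx]
    simp only [map_sub, Pi.sub_apply, P.hjA, P.const]
  ζ := lam τ₀ g₀⁻¹
  prim := hprim
  rot := by
    intro i f m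
    have hne : lam τ₀ g₀⁻¹ ≠ 0 := by
      intro h
      have := norm_lam τ₀ g₀⁻¹
      rw [h, norm_zero] at this
      exact zero_ne_one this
    exact (ptData P τ₀).sigma_smul_coeff hne (fun f f' h m => pointE_rot τ₀ hg₀ f f' h m) i f m

/-- Analytic data of the fibre of `J` over `z`. -/
theorem exists_famData (z : ℂ) : ∃ (τ₀ : ℍ) (e₀ : ℕ) (g₀ : SL(2, ℤ)), 0 < e₀ ∧
    analyticOrderAt (fun w : ℂ => JLocal.kleinJ (ofComplex w) - z) (τ₀ : ℂ) = e₀ ∧
    g₀ • τ₀ = τ₀ ∧ IsPrimitiveRoot (lam τ₀ g₀⁻¹) e₀ := by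
  by_cases h0 : z = 0
  · subst h0
    refine ⟨ρ, 3, ModularGroup.S * ModularGroup.T, by norm_num, ?_, JOrder.ST_smul_ρ, ?_⟩
    · simpa using JLocal.analyticOrderAt_kleinJ_of_E₄_eq_zero JOrder.E₄_ρ
    · rw [lam_ST_inv]; exact isPrimitiveRoot_ρ
  by_cases h1 : z = 1728
  · subst h1
    refine ⟨I, 2, ModularGroup.S, by norm_num, ?_, JOrder.S_smul_I, ?_⟩
    · exact_mod_cast JLocal.analyticOrderAt_kleinJ_sub_of_E₆_eq_zero JOrder.E₆_I
    · rw [lam_S_inv]; exact IsPrimitiveRoot.neg_one 0 (by norm_num)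
  · obtain ⟨τ₀, hτ₀⟩ := JLocal.kleinJ_surjective z
    refine ⟨τ₀, 1, 1, one_pos, ?_, one_smul _ _, ?_⟩
    · have hord := JLocal.analyticOrderAt_kleinJ_sub (τ := τ₀) (by rw [hτ₀]; exact h0)
        (by rw [hτ₀]; exact h1)
      rw [hτ₀] at hord
      exact_mod_cast hord
    · rw [inv_one, lam_one]; exact IsPrimitiveRoot.one

/-- The local family at the cusp, with explicit embeddings
(same proof as `S24.EmbedCusp.nonempty_localFamily_cusp`). -/
noncomputable def cuspFamily (N : ℕ) [NeZero N]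
    (hc : ∀ (g : SL(2, ℤ)) (a : A), translate P.Ψ g a ∈ Rcusp N) :
    LocalFamily k F (SL(2, ℤ) ⧸ Γ) SL(2, ℤ) (jOf F P)⁻¹ N ModularGroup.T where
  σ := (cuspData P N hc).sigma F
  inj := (cuspData P N hc).sigma_injective P.haN
  const := by
    intro i i' a
    rw [IsScalarTower.algebraMap_apply k A F]
    exact (cuspData P N hc).sigma_algebraMap_of_invariant (fun g τ => by
      show P.Ψ _ _ = P.Ψ _ _
      rw [P.const, P.const]) i i'
  agree := by
    intro i i'
    have hinvx : ∀ (g : SL(2, ℤ)) τ, P.Ψ P.jA (g • τ) = P.Ψ P.jA τ := by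
      intro g τ
      rw [P.hjA, P.hjA, JLocal.kleinJ_smul]
    have := (cuspData P N hc).sigma_algebraMap_of_invariant (F := F) (a := P.jA) hinvx i i'
    rw [map_inv₀, map_inv₀, this]
  order := by
    intro i
    have hinvx : ∀ (g : SL(2, ℤ)) τ, P.Ψ P.jA (g • τ) = P.Ψ P.jA τ := by
      intro g τ
      rw [P.hjA, P.hjA, JLocal.kleinJ_smul]
    induction i using QuotientGroup.induction_on with | H g => ?_
    rw [map_inv₀, (cuspData P N hc).sigma_mk_algebraMap]
    have e : (⟨translate P.Ψ g P.jA, hc g P.jA⟩ : Rcusp N) = ⟨JLocal.kleinJ, kleinJ_mem⟩ := by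
      apply Subtype.ext
      funext τ
      show Embed.translate P.Ψ g P.jA τ = JLocal.kleinJ τ
      rw [Embed.translate_apply, hinvx, P.hjA]
    have e2 : (cuspData P N hc).E ⟨translate (cuspData P N hc).Ψ g P.jA,
        (cuspData P N hc).mem_R g P.jA⟩ = Ecusp N ⟨JLocal.kleinJ, kleinJ_mem⟩ := by
      show Ecusp N ⟨translate P.Ψ g P.jA, hc g P.jA⟩ = _
      rw [e]
    rw [e2]
    have hne : Ecusp N ⟨JLocal.kleinJ, kleinJ_mem⟩ ≠ 0 := by
      intro h
      have := order_Ecusp_kleinJ (N := N)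
      rw [h, HahnSeries.order_zero] at this
      have hN : (N : ℤ) ≠ 0 := by exact_mod_cast NeZero.ne N
      omega
    rw [laurent_order_inv hne, order_Ecusp_kleinJ, neg_neg]
  ζ := xi (-1) N
  prim := isPrimitiveRoot_xi_neg_one (NeZero.ne N)
  rot := by
    intro i f m
    exact (cuspData P N hc).sigma_smul_coeff (xi_ne_zero _ _)
      (fun f f' h m => Ecusp_rotation f f' h m) i f m

end Fermat.Agent.GAL.Tors.Dict
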