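import Fermat.Agent.GAL.Tors.Dict.AbsEmb
import Fermat.Agent.GAL.Tors.Dict.PlaceOf
import Fermat.Agent.GAL.Tors.HoloRoot

/-!
# DICT leaf AA (alg => an, points of the upper half plane)
-/

set_option autoImplicit false
set_option linter.unusedSectionVars false

open UpperHalfPlane AlgebraicCurve IntermediateField Module
open scoped Manifold MatrixGroups

namespace Fermat.Agent.GAL.Tors.Dict

open Fermat.Agent.S24 Fermat.Agent.S24.Embed Fermat.Agent.S24.EmbedPoint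
  Fermat.Agent.S24.EmbedCusp Fermat.Agent.S24.CuspRing Fermat.Agent.S24.PointExp

/-- A nonzero holomorphic function on `ℍ` has finite order at every point. -/
theorem AlgAn_order_ne_top (G : holo) (hG : G ≠ 0) (τ : ℍ) :
    analyticOrderAt (G.1 ∘ ofComplex) (τ : ℂ) ≠ ⊤ := by
  intro htop
  apply hG
  apply expand_injective τ
  rw [map_zero]
  rw [analyticOrderAt_eq_top] at htop
  have htend : Filter.Tendsto (phi τ) (nhds 0) (nhds (τ : ℂ)) := by
    have := (analyticAt_phi τ).continuousAt.tendsto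
    rwa [phi_zero] at this
  have hcongr : pull τ G.1 =ᶠ[nhds 0] (fun _ => (0 : ℂ)) := by
    filter_upwards [htend.eventually htop] with w hw
    exact hw
  rw [expand_apply, taylor0_congr hcongr, taylor0_const, map_zero]

theorem AlgAn_exists_order (G : holo) (hG : G ≠ 0) (τ : ℍ) :
    ∃ n : ℕ, analyticOrderAt (G.1 ∘ ofComplex) (τ : ℂ) = n ∧ (pointE τ G).order = n := by
  obtain ⟨n, hn⟩ := ENat.ne_top_iff_exists.1 (AlgAn_order_ne_top G hG τ)
  exact ⟨n, hn.symm, order_pointE τ hn.symm⟩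

/-- expansion of a constant multiple -/
theorem AlgAn_pointE_const_mul (τ₀ : ℍ) (ζ : ℂ) (H H' : holo) (h : ∀ τ, H'.1 τ = ζ * H.1 τ)
    (n : ℤ) : (pointE τ₀ H').coeff n = ζ * (pointE τ₀ H).coeff n := by
  let Z : holo := ⟨fun _ => ζ, mdifferentiable_const⟩
  have h1 : H' = Z * H := by
    apply Subtype.ext
    funext τ
    exact h τ
  have h2 : pointE τ₀ Z = HahnSeries.C ζ := by
    have : expand τ₀ Z = PowerSeries.C ζ := by
      rw [expand_apply]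
      exact taylor0_const ζ
    simp only [pointE, RingHom.comp_apply, this, HahnSeries.ofPowerSeries_C]
  rw [h1, map_mul, h2, HahnSeries.C_mul_eq_smul, HahnSeries.coeff_smul, smul_eq_mul]

variable {k A F : Type*} [Field k] [IsAlgClosed k] [CharZero k] [CommRing A] [Field F]
  [Algebra k A] [Algebra A F] [Algebra k F] [IsScalarTower k A F] [IsFractionRing A F]
variable {Γ : Subgroup SL(2, ℤ)} (P : Realisation k A Γ)

theorem AlgAn_ptEmb_one (τ : ℍ) (a : A) :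
    ptEmb F P τ 1 (algebraMap A F a) = pointE τ ⟨P.Ψ a, P.hol a⟩ := by
  rw [ptEmb_algebraMap]
  congr 1
  apply Subtype.ext
  funext z
  simp

theorem AlgAn_holo_ne_zero {a : A} (ha : a ≠ 0) : (⟨P.Ψ a, P.hol a⟩ : holo) ≠ 0 := by
  intro h
  apply ha
  apply P.inj
  rw [map_zero]
  exact congrArg Subtype.val h

/-- (AA1) If all orders of `a` at the places of `F` are divisible by `m`, so are all the analytic
orders of `Ψ a` on `ℍ`. -/
theorem exists_analyticOrderAt_eq_mul (m : ℕ) (a : A) (ha : a ≠ 0)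
    (hdiv : ∀ v : Place k F, (m : ℤ) ∣ v.ord (algebraMap A F a)) (τ : ℍ) :
    ∃ n : ℕ, analyticOrderAt (P.Ψ a ∘ ofComplex) (τ : ℂ) = ((m * n : ℕ) : ℕ∞) := by
  obtain ⟨n₀, hn₀, hord⟩ := AlgAn_exists_order ⟨P.Ψ a, P.hol a⟩ (AlgAn_holo_ne_zero P ha) τ
  have haF : algebraMap A F a ≠ 0 := by
    rw [Ne, IsFractionRing.to_map_eq_zero_iff]; exact ha
  have h1 : ordOf (ptEmb F P τ 1) (algebraMap A F a) = n₀ := by
    unfold ordOf
    rw [AlgAn_ptEmb_one, hord]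
  by_cases h0 : n₀ = 0
  · exact ⟨0, by rw [hn₀, h0]; simp⟩
  · obtain ⟨v, M, -, -, hv⟩ := exists_place_of_hom (k := k) (ptEmb F P τ 1) (algebraMap A F a)
      (by rw [h1]; exact_mod_cast h0)
    have h2 : (n₀ : ℤ) = M * v.ord (algebraMap A F a) := by rw [← h1, hv _ haF]
    have h3 : (m : ℤ) ∣ (n₀ : ℤ) := by rw [h2]; exact Dvd.dvd.mul_left (hdiv v) M
    obtain ⟨n, hn⟩ := Int.natCast_dvd_natCast.1 h3
    exact ⟨n, by rw [hn₀, hn]⟩

/-- the expansions at a fixed point of `γ ∈ Γ` are invariant under the rotation. -/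
theorem AlgAn_coeff_rot (γ : SL(2, ℤ)) (hγ : γ ∈ Γ) (τ₀ : ℍ) (hfix : γ • τ₀ = τ₀) (f : F)
    (n : ℤ) : (ptEmb F P τ₀ 1 f).coeff n = lam τ₀ (γ⁻¹)⁻¹ ^ n * (ptEmb F P τ₀ 1 f).coeff n := by
  have hfix' : γ⁻¹ • τ₀ = τ₀ := by rw [inv_smul_eq_iff, hfix]
  have hne : lam τ₀ (γ⁻¹)⁻¹ ≠ 0 := by
    intro h
    have := norm_lam τ₀ (γ⁻¹)⁻¹
    rw [h, norm_zero] at this
    exact zero_ne_one this
  have key := (ptData P τ₀).sigma_smul_coeff (F := F) (g₀ := γ⁻¹) hne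
    (fun f f' h m => pointE_rot τ₀ hfix' f f' h m) ((1 : SL(2, ℤ)) : SL(2, ℤ) ⧸ Γ) f n
  have hx : γ⁻¹ • ((1 : SL(2, ℤ)) : SL(2, ℤ) ⧸ Γ) = ((1 : SL(2, ℤ)) : SL(2, ℤ) ⧸ Γ) := by
    show ((γ⁻¹ * 1 : SL(2, ℤ)) : SL(2, ℤ) ⧸ Γ) = _
    rw [QuotientGroup.eq]
    simpa using hγ
  rw [hx, sigma_mk_eq_ptEmb] at key
  exact key

/-- (AA2) the root is invariant under the elements of `Γ` having a fixed point. -/
theorem root_smul_eq_of_fixed (m : ℕ) [NeZero m] (a : A) (ha : a ≠ 0)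
    (hdiv : ∀ v : Place k F, (m : ℤ) ∣ v.ord (algebraMap A F a))
    (h : ℍ → ℂ) (hh : MDiff h) (hpow : ∀ τ, h τ ^ m = P.Ψ a τ)
    (γ : SL(2, ℤ)) (hγ : γ ∈ Γ) (τ₀ : ℍ) (hfix : γ • τ₀ = τ₀) (τ : ℍ) :
    h (γ • τ) = h τ := by
  have hm : m ≠ 0 := NeZero.ne m
  have hh0 : h ≠ 0 := by
    intro h0
    apply ha
    apply P.inj
    rw [map_zero]
    funext z
    rw [← hpow, h0]
    simp [hm]
  obtain ⟨ζ, -, hζ⟩ := root_unique (a := fun τ => h (γ • τ)) (b := h)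
    (Fermat.Agent.GAL.Tors.mdiff_comp_smul hh γ) hh hm
    (fun z => by rw [hpow, hpow, P.inv γ hγ]) hh0
  suffices hζ1 : ζ = 1 by rw [hζ, hζ1, one_mul]
  have hfix' : γ⁻¹ • τ₀ = τ₀ := by rw [inv_smul_eq_iff, hfix]
  let H : holo := ⟨h, hh⟩
  let H' : holo := ⟨fun τ => h (γ • τ), Fermat.Agent.GAL.Tors.mdiff_comp_smul hh γ⟩
  have hH0 : H ≠ 0 := fun h0 => hh0 (congrArg Subtype.val h0)
  obtain ⟨n₀, -, hord⟩ := AlgAn_exists_order H hH0 τ₀
  set lm := lam τ₀ (γ⁻¹)⁻¹ with hlm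
  have hE0 : pointE τ₀ H ≠ 0 := fun h0 => hH0 (pointE_injective τ₀ (by rw [h0, map_zero]))
  have hc : (pointE τ₀ H).coeff (n₀ : ℤ) ≠ 0 := by
    rw [← hord]
    exact fun h0 => hE0 (HahnSeries.coeff_order_eq_zero.mp h0)
  have h1 := pointE_rot τ₀ hfix' H H' (fun z => by simp [H, H']) (n₀ : ℤ)
  rw [AlgAn_pointE_const_mul τ₀ ζ H H' hζ] at h1
  have hζl : ζ = lm ^ (n₀ : ℤ) := mul_right_cancel₀ hc h1
  rw [hζl]
  by_cases hn0 : n₀ = 0
  · rw [hn0]; simp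
  have haF : algebraMap A F a ≠ 0 := by
    rw [Ne, IsFractionRing.to_map_eq_zero_iff]; exact ha
  have hpowH : (⟨P.Ψ a, P.hol a⟩ : holo) = H ^ m := by
    apply Subtype.ext
    funext z
    exact (hpow z).symm
  have h2 : ordOf (ptEmb F P τ₀ 1) (algebraMap A F a) = (m : ℤ) * n₀ := by
    unfold ordOf
    rw [AlgAn_ptEmb_one, hpowH, map_pow, HahnSeries.order_pow, hord, nsmul_eq_mul]
  obtain ⟨v, M, hM, -, hv⟩ := exists_place_of_hom (k := k) (ptEmb F P τ₀ 1) (algebraMap A F a)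
    (by
      rw [h2]
      exact mul_ne_zero (by exact_mod_cast hm) (by exact_mod_cast hn0))
  obtain ⟨ϖ, hϖ⟩ := IsDiscreteValuationRing.exists_irreducible v.toValuationSubring
  have hϖ0 : (ϖ : F) ≠ 0 := by
    simpa [ne_eq, ZeroMemClass.coe_eq_zero] using hϖ.ne_zero
  have h3 : ordOf (ptEmb F P τ₀ 1) (ϖ : F) = M := by
    rw [hv _ hϖ0, v.ord_coe_irreducible hϖ, mul_one]
  have hcϖ : (ptEmb F P τ₀ 1 (ϖ : F)).coeff M ≠ 0 := by
    rw [← h3]
    exact fun h0 => (map_ne_zero (ptEmb F P τ₀ 1)).2 hϖ0 (HahnSeries.coeff_order_eq_zero.mp h0)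
  have hlM : lm ^ M = 1 := by
    have := AlgAn_coeff_rot P γ hγ τ₀ hfix (ϖ : F) M
    have h4 : (lm ^ M - 1) * (ptEmb F P τ₀ 1 (ϖ : F)).coeff M = 0 := by
      rw [sub_mul, one_mul, ← this, sub_self]
    exact sub_eq_zero.1 ((mul_eq_zero.1 h4).resolve_right hcϖ)
  obtain ⟨t, ht⟩ := hdiv v
  have h5 : (n₀ : ℤ) = M * t := by
    have : (m : ℤ) * n₀ = (m : ℤ) * (M * t) := by
      rw [← h2, hv _ haF, ht]; ring
    exact mul_left_cancel₀ (by exact_mod_cast hm) this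
  rw [h5, zpow_mul, hlM, one_zpow]

/-- (AA3) an elliptic element has a fixed point. -/
theorem exists_fixed_of_trace_sq_lt_four (γ : SL(2, ℤ))
    (h : (γ : Matrix (Fin 2) (Fin 2) ℤ).trace ^ 2 < 4) : ∃ τ₀ : ℍ, γ • τ₀ = τ₀ := by
  rw [Matrix.trace_fin_two] at h
  have hdet : γ 0 0 * γ 1 1 - γ 0 1 * γ 1 0 = 1 := by
    have := γ.det_coe
    rwa [Matrix.det_fin_two] at this
  set a := γ 0 0 with ha
  set b := γ 0 1 with hb
  set c := γ 1 0 with hc
  set d := γ 1 1 with hd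
  have hc0 : c ≠ 0 := by
    intro h0
    rw [h0, mul_zero, sub_zero] at hdet
    rcases Int.eq_one_or_neg_one_of_mul_eq_one' hdet with ⟨h1, h2⟩ | ⟨h1, h2⟩
    · rw [h1, h2] at h; norm_num at h
    · rw [h1, h2] at h; norm_num at h
  have hD : (0 : ℝ) < 4 - ((a : ℝ) + d) ^ 2 := by
    have : ((a + d) ^ 2 : ℤ) < 4 := h
    have h' : (((a + d) ^ 2 : ℤ) : ℝ) < 4 := by exact_mod_cast this
    push_cast at h'
    linarith
  set s : ℝ := Real.sqrt (4 - ((a : ℝ) + d) ^ 2) with hs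
  have hs0 : 0 < s := Real.sqrt_pos.2 hD
  have hs2 : s ^ 2 = 4 - ((a : ℝ) + d) ^ 2 := Real.sq_sqrt hD.le
  have hcR : (c : ℝ) ≠ 0 := by exact_mod_cast hc0
  have habs : 0 < |(c : ℝ)| := abs_pos.2 hcR
  let z : ℂ := ⟨((a : ℝ) - d) / (2 * c), s / (2 * |(c : ℝ)|)⟩
  have hz : 0 < z.im := by
    show 0 < s / (2 * |(c : ℝ)|)
    positivity
  refine ⟨⟨z, hz⟩, ?_⟩
  apply UpperHalfPlane.ext
  rw [coe_specialLinearGroup_apply]
  show (((algebraMap ℤ ℝ a : ℝ) : ℂ) * z + ((algebraMap ℤ ℝ b : ℝ) : ℂ)) /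
      (((algebraMap ℤ ℝ c : ℝ) : ℂ) * z + ((algebraMap ℤ ℝ d : ℝ) : ℂ)) = z
  simp only [algebraMap_int_eq, Int.coe_castRingHom]
  have hden : (((c : ℝ) : ℂ) * z + ((d : ℝ) : ℂ)) ≠ 0 := by
    intro h0
    have him := congrArg Complex.im h0
    simp only [Complex.add_im, Complex.mul_im, Complex.ofReal_re, Complex.ofReal_im, zero_mul,
      add_zero, Complex.zero_im] at him
    rcases mul_eq_zero.1 him with h1 | h1
    · exact hcR h1
    · exact hz.ne' h1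
  rw [div_eq_iff hden]
  have hdetR : (a : ℝ) * d - b * c = 1 := by exact_mod_cast hdet
  have habs2 : |(c : ℝ)| * |(c : ℝ)| = c * c := abs_mul_abs_self _
  apply Complex.ext
  · simp only [Complex.add_re, Complex.mul_re, Complex.ofReal_re, Complex.ofReal_im, zero_mul,
      sub_zero, Complex.add_im, Complex.mul_im, add_zero]
    show (a : ℝ) * (((a : ℝ) - d) / (2 * c)) + b =
      (((a : ℝ) - d) / (2 * c)) * (c * (((a : ℝ) - d) / (2 * c)) + d) -
        (s / (2 * |(c : ℝ)|)) * (c * (s / (2 * |(c : ℝ)|)))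
    have e1 : (s / (2 * |(c : ℝ)|)) * (c * (s / (2 * |(c : ℝ)|))) = s ^ 2 / (4 * c) := by
      have : (s / (2 * |(c : ℝ)|)) * (c * (s / (2 * |(c : ℝ)|))) =
          s ^ 2 * c / (4 * (|(c : ℝ)| * |(c : ℝ)|)) := by
        field_simp
        ring
      rw [this, habs2]
      field_simp
    rw [e1, hs2]
    field_simp
    nlinarith [hdetR]
  · simp only [Complex.add_re, Complex.mul_re, Complex.ofReal_re, Complex.ofReal_im, zero_mul,
      sub_zero, Complex.add_im, Complex.mul_im, add_zero]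
    show (a : ℝ) * (s / (2 * |(c : ℝ)|)) =
      (((a : ℝ) - d) / (2 * c)) * (c * (s / (2 * |(c : ℝ)|))) +
        (s / (2 * |(c : ℝ)|)) * (c * (((a : ℝ) - d) / (2 * c)) + d)
    field_simp
    ring

end Fermat.Agent.GAL.Tors.Dict
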