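import Fermat.Agent.GAL.Tors.Dict.AbsEmb
import Fermat.Agent.GAL.Tors.Dict.PlaceOf
import Fermat.Agent.GAL.Tors.Dict.RC
import Fermat.Agent.GAL.Tors.HoloRoot
import Fermat.Agent.ES.Period

/-!
# DICT leaf AC (alg => an, cusps)
-/

set_option autoImplicit false
set_option linter.unusedSectionVars false

open UpperHalfPlane AlgebraicCurve IntermediateField Module
open scoped Manifold MatrixGroups Real

namespace Fermat.Agent.GAL.Tors.Dict

open Fermat.Agent.S24 Fermat.Agent.S24.Embed Fermat.Agent.S24.EmbedPoint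
  Fermat.Agent.S24.EmbedCusp Fermat.Agent.S24.CuspRing Fermat.Agent.S24.PointExp

namespace AC

/-- An upper triangular element of `SL(2, ℤ)` acts on `ℍ` as an integral translation. -/
theorem exists_vadd_of_upperTriangular (κ : SL(2, ℤ)) (h : κ 1 0 = 0) :
    ∃ n : ℤ, ∀ τ : ℍ, κ • τ = (n : ℝ) +ᵥ τ := by
  have hdet : κ 0 0 * κ 1 1 - κ 0 1 * κ 1 0 = 1 := by
    have := κ.det_coe
    rwa [Matrix.det_fin_two] at this
  rw [h, mul_zero, sub_zero] at hdet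
  refine ⟨κ 0 1 * κ 0 0, fun τ => ?_⟩
  rw [UpperHalfPlane.ext_iff, coe_vadd, coe_specialLinearGroup_apply, h]
  rcases Int.mul_eq_one_iff_eq_one_or_neg_one.mp hdet with ⟨h1, h2⟩ | ⟨h1, h2⟩
  · rw [h1, h2]
    simp
    ring
  · rw [h1, h2]
    simp
    ring

/-- Functions in `Rcusp N` are `N`-periodic. -/
theorem periodic_of_mem {N : ℕ} [NeZero N] {f : ℍ → ℂ} (hf : f ∈ Rcusp N) (τ : ℍ) :
    f ((N : ℝ) +ᵥ τ) = f τ := by
  obtain ⟨m, g, h⟩ := hf
  have hN : (N : ℂ) ≠ 0 := Nat.cast_ne_zero.mpr (NeZero.ne N)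
  have hw : wpar N ((N : ℝ) +ᵥ τ) = wpar N τ := by
    unfold wpar Function.Periodic.qParam
    rw [coe_vadd]
    have e : 2 * (π : ℂ) * Complex.I * (((N : ℝ) : ℂ) + (τ : ℂ)) / ((N : ℝ) : ℂ)
        = 2 * (π : ℂ) * Complex.I * (τ : ℂ) / ((N : ℝ) : ℂ) + 2 * (π : ℂ) * Complex.I := by
      push_cast
      field_simp
      ring
    rw [e, Complex.exp_add, Complex.exp_two_pi_mul_I, mul_one]
  have h1 := h.eq ((N : ℝ) +ᵥ τ)
  have h2 := h.eq τ
  rw [hw, ← h2] at h1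
  exact mul_right_cancel₀ (pow_ne_zero _ (wpar_ne_zero N τ)) h1

/-- Moderate growth passes to roots. -/
theorem isBigO_root {H G : ℍ → ℂ} {m : ℕ} (hm : m ≠ 0) (hpow : ∀ τ, H τ ^ m = G τ) {M : ℕ}
    (hG : G =O[atImInfty] fun τ : ℍ => Real.exp (2 * π * M * τ.im)) :
    H =O[atImInfty] fun τ : ℍ => Real.exp (2 * π * M * τ.im) := by
  obtain ⟨C, hC⟩ := hG.bound
  refine Asymptotics.IsBigO.of_bound (1 + |C|) ?_
  filter_upwards [hC] with τ hτ
  have he : 1 ≤ Real.exp (2 * π * M * τ.im) :=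
    Real.one_le_exp (by have := τ.im_pos; positivity)
  have hH : ‖H τ‖ ≤ 1 + ‖G τ‖ := by
    rcases le_total ‖H τ‖ 1 with h | h
    · linarith [norm_nonneg (G τ)]
    · have h1 : ‖H τ‖ ≤ ‖H τ‖ ^ m := le_self_pow₀ h hm
      rw [← norm_pow, hpow] at h1
      linarith
  rw [Real.norm_eq_abs, abs_of_pos (Real.exp_pos _)] at hτ ⊢
  have h2 : C * Real.exp (2 * π * M * τ.im) ≤ |C| * Real.exp (2 * π * M * τ.im) :=
    mul_le_mul_of_nonneg_right (le_abs_self C) (Real.exp_pos _).le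
  linarith

/-- Iterating a quasi-period. -/
theorem iterate_period {H : ℍ → ℂ} {N : ℕ} {ζ : ℂ} (h : ∀ τ : ℍ, H ((N : ℝ) +ᵥ τ) = ζ * H τ)
    (j : ℕ) (τ : ℍ) : H (((N * j : ℕ) : ℝ) +ᵥ τ) = ζ ^ j * H τ := by
  induction j with
  | zero => simp
  | succ j ih =>
    have e : ((N * (j + 1) : ℕ) : ℝ) +ᵥ τ = (N : ℝ) +ᵥ (((N * j : ℕ) : ℝ) +ᵥ τ) := by
      rw [vadd_vadd]
      congr 1
      push_cast
      ring
    rw [e, h, ih, pow_succ]
    ring

end AC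

variable {k A F : Type*} [Field k] [IsAlgClosed k] [CharZero k] [CommRing A] [Field F]
  [Algebra k A] [Algebra A F] [Algebra k F] [IsScalarTower k A F] [IsFractionRing A F]
variable {Γ : Subgroup SL(2, ℤ)} (P : Realisation k A Γ)

/-- (AC) the root is invariant under the parabolic elements of `Γ`. -/
theorem root_smul_eq_of_parabolic (N : ℕ) [NeZero N]
    (hc : ∀ (g : SL(2, ℤ)) (a : A), translate P.Ψ g a ∈ Rcusp N)
    (m : ℕ) [NeZero m] (a : A) (ha : a ≠ 0)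
    (hdiv : ∀ v : Place k F, (m : ℤ) ∣ v.ord (algebraMap A F a))
    (h : ℍ → ℂ) (hh : MDiff h) (hpow : ∀ τ, h τ ^ m = P.Ψ a τ)
    (γ : SL(2, ℤ)) (hγ : γ ∈ Γ) (htr : (γ : Matrix (Fin 2) (Fin 2) ℤ).trace ^ 2 = 4) (τ : ℍ) :
    h (γ • τ) = h τ := by
  classical
  have hm : m ≠ 0 := NeZero.ne m
  obtain ⟨δ, hδ⟩ := Fermat.Agent.ES.exists_conj_upperTriangular γ htr
  obtain ⟨n, hn⟩ := AC.exists_vadd_of_upperTriangular (δ⁻¹ * γ * δ) hδ
  set H : ℍ → ℂ := fun τ => h (δ • τ) with hH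
  set G : ℍ → ℂ := translate P.Ψ δ⁻¹ a with hG
  have hGapp : ∀ τ, G τ = P.Ψ a (δ • τ) := fun τ => by rw [hG, Embed.translate_apply, inv_inv]
  have hGmem : G ∈ Rcusp N := hc δ⁻¹ a
  have hHd : MDiff H := Fermat.Agent.GAL.Tors.mdiff_comp_smul hh δ
  have hHG : ∀ τ, H τ ^ m = G τ := fun τ => by rw [hGapp]; exact hpow _
  have hδκ : ∀ τ : ℍ, δ • ((n : ℝ) +ᵥ τ) = γ • (δ • τ) := fun τ => by
    rw [← hn, ← mul_smul, ← mul_smul]
    congr 1
    group
  have hinv : ∀ (b : A) (τ : ℍ),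
      translate P.Ψ δ⁻¹ b ((n : ℝ) +ᵥ τ) = translate P.Ψ δ⁻¹ b τ := by
    intro b τ
    rw [Embed.translate_apply, Embed.translate_apply, inv_inv, hδκ, P.inv γ hγ]
  have hG0 : G ≠ 0 := by
    intro h0
    exact ha (translate_injective P.inj δ⁻¹ (by rw [← hG, h0, map_zero]))
  have hH0 : H ≠ 0 := by
    intro h0
    apply hG0
    funext τ
    rw [← hHG, h0]
    simp [hm]
  have hHn : MDiff (fun τ : ℍ => H ((n : ℝ) +ᵥ τ)) := by
    have e : (fun τ : ℍ => H ((n : ℝ) +ᵥ τ)) = fun τ => H (ModularGroup.T ^ n • τ) := by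
      funext τ
      rw [modular_T_zpow_smul]
    rw [e]
    exact Fermat.Agent.GAL.Tors.mdiff_comp_smul hHd _
  have hHN : MDiff (fun τ : ℍ => H ((N : ℝ) +ᵥ τ)) := by
    have e : (fun τ : ℍ => H ((N : ℝ) +ᵥ τ)) = fun τ => H (ModularGroup.T ^ (N : ℤ) • τ) := by
      funext τ
      rw [modular_T_zpow_smul]
      simp
    rw [e]
    exact Fermat.Agent.GAL.Tors.mdiff_comp_smul hHd _
  obtain ⟨ζ, hζm, hζ⟩ := Fermat.Agent.GAL.Tors.root_unique hHn hHd hm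
    (fun τ => by rw [hHG, hHG]; exact hinv a τ) hH0
  obtain ⟨ζ', hζ'm, hζ'⟩ := Fermat.Agent.GAL.Tors.root_unique hHN hHd hm
    (fun τ => by rw [hHG, hHG]; exact AC.periodic_of_mem hGmem τ) hH0
  have hper : ∀ τ : ℍ, H (((N * m : ℕ) : ℝ) +ᵥ τ) = H τ := fun τ => by
    rw [AC.iterate_period hζ' m τ, hζ'm, one_mul]
  obtain ⟨M₀, hM₀⟩ := isBigO_of_mem hGmem
  have hHmem : H ∈ Rcusp (N * m) :=
    mem_Rcusp_of_periodic hHd hper ⟨M₀, AC.isBigO_root hm hHG hM₀⟩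
  have hGmem' : G ∈ Rcusp (N * m) := mem_Rcusp_mul hGmem
  set S := Ecusp (N * m) ⟨H, hHmem⟩ with hS
  have hSpow : S ^ m = Ecusp (N * m) ⟨G, hGmem'⟩ := by
    rw [hS, ← map_pow]
    congr 1
    apply Subtype.ext
    funext τ
    exact hHG τ
  have hS0 : S ≠ 0 := by
    intro h0
    have h1 := Ecusp_injective (N := N * m) (a₁ := ⟨H, hHmem⟩) (a₂ := 0)
      (by rw [map_zero]; exact h0)
    exact hH0 (congrArg Subtype.val h1)
  set ν : ℤ := (Ecusp N ⟨G, hGmem⟩).order with hν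
  have hordS : S.order = ν := by
    have h1 : (S ^ m).order = m * S.order := by
      rw [HahnSeries.order_pow]
      simp
    rw [hSpow, order_Ecusp_mul hGmem hGmem'] at h1
    exact (mul_left_cancel₀ (by exact_mod_cast hm) h1).symm
  have hf'mem : (fun τ : ℍ => H ((n : ℝ) +ᵥ τ)) ∈ Rcusp (N * m) := by
    have e : (fun τ : ℍ => H ((n : ℝ) +ᵥ τ)) = (fun _ => ζ) * H := by
      funext τ
      exact hζ τ
    rw [e]
    exact (Rcusp (N * m)).mul_mem (const_mem _ ζ) hHmem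
  have hco := Ecusp_coeff_vadd (N := N * m) ⟨H, hHmem⟩ ⟨_, hf'mem⟩ n (fun τ => rfl) ν
  have hco2 : Ecusp (N * m) ⟨_, hf'mem⟩ = HahnSeries.C ζ * S := by
    have e : (⟨_, hf'mem⟩ : Rcusp (N * m)) = ⟨fun _ => ζ, const_mem _ ζ⟩ * ⟨H, hHmem⟩ :=
      Subtype.ext (funext fun τ => hζ τ)
    rw [e, map_mul, Ecusp_const]
  rw [hco2, HahnSeries.C_mul_eq_smul, HahnSeries.coeff_smul, smul_eq_mul] at hco
  have hSν : S.coeff ν ≠ 0 := by
    rw [← hordS]
    exact fun h0 => hS0 (HahnSeries.coeff_order_eq_zero.mp h0)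
  have hζexp : ζ = Complex.exp (2 * π * Complex.I * n * ν / ((N * m : ℕ) : ℂ)) :=
    mul_right_cancel₀ hSν hco
  set φ := cuspEmb F P N hc δ⁻¹ with hφ
  set ξ : ℂ := Complex.exp (2 * π * Complex.I * n / N) with hξ
  have hξ0 : ξ ≠ 0 := Complex.exp_ne_zero _
  have hξk : ∀ k : ℤ, ξ ^ k = Complex.exp (2 * π * Complex.I * n * k / N) := fun k => by
    rw [hξ, ← Complex.exp_int_mul]
    congr 1
    ring
  have hφtw : φ = (Embed.twist ξ hξ0).comp φ := by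
    apply IsLocalization.ringHom_ext (nonZeroDivisors A)
    ext1 b
    simp only [RingHom.comp_apply]
    rw [hφ, cuspEmb_algebraMap]
    ext k
    rw [Embed.twist_coeff, hξk]
    exact Ecusp_coeff_vadd _ _ n (fun τ => (hinv b τ).symm) k
  have hcoef : ∀ (f : F) (k : ℤ), (φ f).coeff k ≠ 0 → (N : ℤ) ∣ n * k := by
    intro f k hk
    have h1 : (φ f).coeff k = ξ ^ k * (φ f).coeff k := by
      conv_lhs => rw [hφtw]
      rfl
    have h2 : ξ ^ k = 1 := by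
      have h3 : (ξ ^ k - 1) * (φ f).coeff k = 0 := by linear_combination -h1
      exact sub_eq_zero.mp ((mul_eq_zero.mp h3).resolve_right hk)
    rw [hξk] at h2
    exact (exp_eq_one_iff_dvd (N := N) (n * k)).mp (by push_cast; rw [← h2]; congr 1; ring)
  have hordj : ordOf φ (jOf F P)⁻¹ = N := by
    have h1 := (cuspFamily F P N hc).order ((δ⁻¹ : SL(2, ℤ)) : SL(2, ℤ) ⧸ Γ)
    rw [show (cuspFamily F P N hc).σ = (cuspData P N hc).sigma F from rfl,
      sigma_mk_eq_cuspEmb] at h1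
    exact h1
  obtain ⟨v, M, hM, -, hvM⟩ := exists_place_of_hom (k := k) φ (jOf F P)⁻¹
    (by rw [hordj]; exact_mod_cast NeZero.ne N)
  obtain ⟨ϖ, hϖ⟩ := IsDiscreteValuationRing.exists_irreducible v.toValuationSubring
  have hϖ1 : v.ord (ϖ : F) = 1 := v.ord_coe_irreducible hϖ
  have hϖ0 : (ϖ : F) ≠ 0 := by
    intro h0
    rw [h0, Place.ord_zero] at hϖ1
    exact zero_ne_one hϖ1
  have hordϖ : ordOf φ (ϖ : F) = M := by rw [hvM _ hϖ0, hϖ1, mul_one]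
  have hNM : (N : ℤ) ∣ n * M := by
    apply hcoef (ϖ : F) M
    rw [← hordϖ]
    exact fun h0 => hϖ0 ((map_eq_zero φ).mp (HahnSeries.coeff_order_eq_zero.mp h0))
  have ha' : algebraMap A F a ≠ 0 := by
    intro h0
    exact ha (IsFractionRing.injective A F (by rw [h0, map_zero]))
  obtain ⟨t, ht⟩ := hdiv v
  have hνeq : ν = M * (m * t) := by
    rw [← ht, ← hvM _ ha', hν]
    unfold ordOf
    rw [hφ, cuspEmb_algebraMap]
  have hζ1 : ζ = 1 := by
    rw [hζexp, hνeq]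
    have hN : (N : ℂ) ≠ 0 := Nat.cast_ne_zero.mpr (NeZero.ne N)
    have hmC : (m : ℂ) ≠ 0 := Nat.cast_ne_zero.mpr hm
    have e : (2 * π * Complex.I * n * ((M * (m * t) : ℤ) : ℂ) / ((N * m : ℕ) : ℂ))
        = 2 * π * Complex.I * ((n * M * t : ℤ) : ℂ) / N := by
      push_cast
      field_simp
    rw [e]
    exact (exp_eq_one_iff_dvd (N := N) (n * M * t)).mpr (Dvd.dvd.mul_right hNM t)
  have hfin := hζ (δ⁻¹ • τ)
  rw [hζ1, one_mul] at hfin
  simp only [hH] at hfin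
  rw [hδκ, smul_inv_smul] at hfin
  exact hfin

end Fermat.Agent.GAL.Tors.Dict
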