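import Fermat.Agent.S24.LocalCount

set_option autoImplicit false

/-!
# DICT leaf ER: exact ramification (refinement of `S24.card_zeros_eq_card_orbits`)
-/

namespace Fermat.Agent.GAL.Tors.Dict

open AlgebraicCurve Fermat.Agent.S24 IntermediateField Module

variable {k F : Type*} [Field k] [IsAlgClosed k] [CharZero k] [Field F] [Algebra k F]
variable {L : Type*} [Field L]
variable {ι G : Type*} [Group G] [MulAction G ι]

/-- In the situation of the local counting lemma, the order of `x` at the place defined by the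
embedding `σ i` is the length of the orbit of `i` under `g`. -/
theorem ord_eq_minimalPeriod (x : F) (hx : Transcendental k x) [FiniteDimensional k⟮x⟯ F]
    [Finite ι] (hcard : Nat.card ι = finrank k⟮x⟯ F)
    (σ : ι → F →+* LaurentSeries L) (hσinj : Function.Injective σ)
    (hσk : ∀ i j (a : k), σ i (algebraMap k F a) = σ j (algebraMap k F a))
    (hσx : ∀ i j, σ i x = σ j x)
    (e₀ : ℕ) (he₀ : 0 < e₀) (hord : ∀ i, (σ i x).order = e₀)
    (g : G) (ζ : L) (hζ : IsPrimitiveRoot ζ e₀)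
    (hπ : ∀ i f (m : ℤ), (σ (g • i) f).coeff m = ζ ^ m * (σ i f).coeff m)
    (i : ι) (v : Place k F) (hv : v.toValuationSubring = ringOf (σ i)) :
    v.ord x = (Function.minimalPeriod (g • ·) i : ℤ) := by
  classical
  cases nonempty_fintype ι
  have hx0 : x ≠ 0 := by
    rintro rfl
    exact hx isAlgebraic_zero
  have hζ0 : ζ ≠ 0 := hζ.ne_zero he₀.ne'
  obtain ⟨Z, hZ, hsum⟩ := exists_finset_zeros x hx
  have hcard' : Fintype.card ι = finrank k⟮x⟯ F := by rw [← hcard, Nat.card_eq_fintype_card]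
  obtain ⟨M, hM, hφ⟩ := exists_mul_ord_of_hom v (ordOf (σ i))
    (fun f g hf hg => ordOf_mul _ hf hg)
    (fun f _ => by rw [hv, mem_ringOf])
  have hvpos : 0 < v.ord x := by
    have h1 : (e₀ : ℤ) = M * v.ord x := by rw [← hφ x hx0]; exact (hord i).symm
    have h2 : (0 : ℤ) < e₀ := by exact_mod_cast he₀
    rw [h1] at h2
    exact (pos_iff_pos_of_mul_pos h2).mp hM
  have hvZ : v ∈ Z := (hZ v).mpr hvpos
  have hex : ∀ v' ∈ Z, ∃ i', v'.toValuationSubring = ringOf (σ i') ∧ (v' = v → i' = i) := by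
    intro v' hv'
    by_cases h : v' = v
    · subst h; exact ⟨i, hv, fun _ => rfl⟩
    · obtain ⟨i', hi'⟩ := exists_embedding_of_place x hx hcard' σ hσinj hσk hσx
        (fun i => by unfold ordOf; rw [hord i]; exact_mod_cast he₀) v' ((hZ v').mp hv')
      exact ⟨i', hi', fun h' => absurd h' h⟩
  have hne : Nonempty ι := ⟨i⟩
  choose! iv hiv hivv using hex
  let Ω := MulAction.orbitRel.Quotient (Subgroup.zpowers g) ι
  let _ : Fintype Ω := Fintype.ofFinite Ω
  let φ : Place k F → Ω := fun v => Quotient.mk'' (iv v)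
  let size : Ω → ℕ := fun ω => Nat.card ω.orbit
  have hsize_sum : ∑ ω, size ω = Fintype.card ι := by
    rw [← Nat.card_eq_fintype_card,
      Nat.card_congr (MulAction.selfEquivSigmaOrbits' (Subgroup.zpowers g) ι), Nat.card_sigma]
  have hsize : ∀ v', size (φ v') = Function.minimalPeriod (g • ·) (iv v') := by
    intro v'
    rw [MulAction.minimalPeriod_eq_card, ← Nat.card_eq_fintype_card]
    rfl
  have hsize_pos : ∀ ω, 0 < size ω := by
    intro ω
    induction ω using Quotient.inductionOn' with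
    | h i =>
      have : Nonempty (MulAction.orbitRel.Quotient.orbit
          (Quotient.mk'' i : MulAction.orbitRel.Quotient (Subgroup.zpowers g) ι)) :=
        ⟨⟨i, MulAction.mem_orbit_self i⟩⟩
      exact Nat.card_pos
  have hle : ∀ v' ∈ Z, v'.ord x ≤ (size (φ v') : ℤ) := by
    intro v' hv'
    have h2 : g ^ (size (φ v')) • iv v' = iv v' := by
      rw [hsize, MulAction.pow_smul_eq_iff_minimalPeriod_dvd]
    have h3 := ord_dvd_of_period x hx0 σ g ζ e₀ hζ hπ (iv v') (hord _) v' (hiv v' hv') _ h2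
    exact Int.le_of_dvd (by exact_mod_cast hsize_pos _) h3
  have hinj : Set.InjOn φ Z := by
    intro v₁ hv₁ v₂ hv₂ hvv'
    have h1 : iv v₁ ∈ MulAction.orbit (Subgroup.zpowers g) (iv v₂) := Quotient.exact' hvv'
    obtain ⟨⟨h, hh⟩, hh2⟩ := h1
    obtain ⟨z, rfl⟩ := Subgroup.mem_zpowers_iff.mp hh
    have h3 : g ^ z • iv v₂ = iv v₁ := hh2
    apply Place.ext
    rw [hiv v₁ hv₁, hiv v₂ hv₂, ← h3, ringOf_zpowers_smul σ g ζ hζ0 hπ]
  have hsum2 : ∑ v' ∈ Z, (size (φ v') : ℤ) ≤ ∑ v' ∈ Z, v'.ord x := by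
    rw [hsum, ← hcard', ← hsize_sum]
    have h1 : ∑ v' ∈ Z, size (φ v') = ∑ ω ∈ Z.image φ, size ω := (Finset.sum_image hinj).symm
    have h2 : ∑ ω ∈ Z.image φ, size ω ≤ ∑ ω, size ω :=
      Finset.sum_le_sum_of_subset (Finset.subset_univ _)
    exact_mod_cast h1.trans_le h2
  have heq := (Finset.sum_eq_sum_iff_of_le hle).mp (le_antisymm (Finset.sum_le_sum hle) hsum2)
  rw [heq v hvZ, hsize, hivv v hvZ rfl]

/-- Consequence: the ramification index of the embedding `σ i` over its place. -/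
theorem ordOf_mul_minimalPeriod (x : F) (hx : Transcendental k x) [FiniteDimensional k⟮x⟯ F]
    [Finite ι] (hcard : Nat.card ι = finrank k⟮x⟯ F)
    (σ : ι → F →+* LaurentSeries L) (hσinj : Function.Injective σ)
    (hσk : ∀ i j (a : k), σ i (algebraMap k F a) = σ j (algebraMap k F a))
    (hσx : ∀ i j, σ i x = σ j x)
    (e₀ : ℕ) (he₀ : 0 < e₀) (hord : ∀ i, (σ i x).order = e₀)
    (g : G) (ζ : L) (hζ : IsPrimitiveRoot ζ e₀)
    (hπ : ∀ i f (m : ℤ), (σ (g • i) f).coeff m = ζ ^ m * (σ i f).coeff m)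
    (i : ι) (v : Place k F) (hv : v.toValuationSubring = ringOf (σ i)) (f : F) (hf : f ≠ 0) :
    ordOf (σ i) f * (Function.minimalPeriod (g • ·) i : ℤ) = e₀ * v.ord f := by
  have hx0 : x ≠ 0 := by
    rintro rfl
    exact hx isAlgebraic_zero
  obtain ⟨M, hM, hφ⟩ := exists_mul_ord_of_hom v (ordOf (σ i))
    (fun f g hf hg => ordOf_mul _ hf hg)
    (fun f _ => by rw [hv, mem_ringOf])
  have h1 : (e₀ : ℤ) = M * v.ord x := by rw [← hφ x hx0]; exact (hord i).symm
  rw [← ord_eq_minimalPeriod x hx hcard σ hσinj hσk hσx e₀ he₀ hord g ζ hζ hπ i v hv, hφ f hf, h1]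
  ring

end Fermat.Agent.GAL.Tors.Dict
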