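import Fermat.Agent.GAL.Tors.Dict.AbsEmb
import Fermat.Agent.GAL.Tors.Dict.ExactRam
import Fermat.Agent.S24.PlaceDeg
import Fermat.Agent.S24.RH

/-!
# DICT leaf NA (an => alg, finite places)
-/

set_option autoImplicit false
set_option linter.unusedSectionVars false

open UpperHalfPlane AlgebraicCurve IntermediateField Module
open scoped Manifold MatrixGroups

namespace Fermat.Agent.GAL.Tors.Dict

open Fermat.Agent.S24 Fermat.Agent.S24.Embed Fermat.Agent.S24.EmbedPoint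
  Fermat.Agent.S24.EmbedCusp Fermat.Agent.S24.CuspRing Fermat.Agent.S24.PointExp

variable {k A F : Type*} [Field k] [IsAlgClosed k] [CharZero k] [CommRing A] [Field F]
  [Algebra k A] [Algebra A F] [Algebra k F] [IsScalarTower k A F] [IsFractionRing A F]
variable {Γ : Subgroup SL(2, ℤ)} (P : Realisation k A Γ)

theorem finite_quot_of_finrank {j : F} [FiniteDimensional k⟮j⟯ F]
    (hn : finrank k⟮j⟯ F = Nat.card (SL(2, ℤ) ⧸ Γ)) : Finite (SL(2, ℤ) ⧸ Γ) := by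
  apply Nat.finite_of_card_ne_zero
  rw [← hn]
  exact (finrank_pos (R := k⟮j⟯) (M := F)).ne'

/-- (NA0) every place at which `j` is finite comes from one of the explicit embeddings. -/
theorem exists_ptEmb_of_place (hj : Transcendental k (jOf F P)) [FiniteDimensional k⟮jOf F P⟯ F]
    (hn : finrank k⟮jOf F P⟯ F = Nat.card (SL(2, ℤ) ⧸ Γ))
    (v : Place k F) (hv : 0 ≤ v.ord (jOf F P)) :
    ∃ (c : k) (τ₀ : ℍ) (e₀ : ℕ) (g₀ g : SL(2, ℤ)), 0 < e₀ ∧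
      analyticOrderAt (fun w : ℂ => JLocal.kleinJ (ofComplex w) - P.ι c) (τ₀ : ℂ) = e₀ ∧
      g₀ • τ₀ = τ₀ ∧ IsPrimitiveRoot (lam τ₀ g₀⁻¹) e₀ ∧
      v.toValuationSubring = ringOf (ptEmb F P τ₀ g) := by
  classical
  have hfin : Finite (SL(2, ℤ) ⧸ Γ) := finite_quot_of_finrank hn
  cases nonempty_fintype (SL(2, ℤ) ⧸ Γ)
  have hj0 : jOf F P ≠ 0 := by
    intro h
    rw [h] at hj
    exact hj isAlgebraic_zero
  obtain ⟨c, hc⟩ := exists_const_of_mem (jOf F P) hj v (jOf F P) (mem_of_ord_nonneg v hj0 hv)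
  have hc' : 0 < v.ord (jOf F P - algebraMap k F c) := by
    rcases hc with hc | hc
    · exfalso
      rw [hc] at hj
      exact hj (isAlgebraic_algebraMap c)
    · exact hc
  obtain ⟨τ₀, e₀, g₀, he₀, hord, hg₀, hprim⟩ := exists_famData (P.ι c)
  let fam := ptFamily F P c τ₀ e₀ hord g₀ hg₀ hprim
  have hfd : FiniteDimensional k⟮jOf F P - algebraMap k F c⟯ F := by
    rw [adjoin_sub_const_eq]; infer_instance
  obtain ⟨i, hi⟩ := exists_embedding_of_place (jOf F P - algebraMap k F c)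
    (transcendental_sub_const hj c)
    (by rw [adjoin_sub_const_eq, hn, Nat.card_eq_fintype_card]) fam.σ fam.inj fam.const fam.agree
    (fun i => by unfold ordOf; rw [fam.order i]; exact_mod_cast he₀) v hc'
  induction i using QuotientGroup.induction_on with | H g => ?_
  refine ⟨c, τ₀, e₀, g₀, g, he₀, hord, hg₀, hprim, ?_⟩
  rw [hi]
  show ringOf ((ptData P τ₀).sigma F (g : SL(2, ℤ) ⧸ Γ)) = _
  rw [sigma_mk_eq_ptEmb]

/-- (NA1) exact ramification of the explicit embeddings at the points. -/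
theorem ordOf_ptEmb_mul (hj : Transcendental k (jOf F P)) [FiniteDimensional k⟮jOf F P⟯ F]
    (hn : finrank k⟮jOf F P⟯ F = Nat.card (SL(2, ℤ) ⧸ Γ))
    (c : k) (τ₀ : ℍ) (e₀ : ℕ) (g₀ g : SL(2, ℤ)) (he₀ : 0 < e₀)
    (hord : analyticOrderAt (fun w : ℂ => JLocal.kleinJ (ofComplex w) - P.ι c) (τ₀ : ℂ) = e₀)
    (hg₀ : g₀ • τ₀ = τ₀) (hprim : IsPrimitiveRoot (lam τ₀ g₀⁻¹) e₀)
    (v : Place k F) (hv : v.toValuationSubring = ringOf (ptEmb F P τ₀ g)) (f : F) (hf : f ≠ 0) :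
    ordOf (ptEmb F P τ₀ g) f *
      (Function.minimalPeriod (g₀ • ·) (g : SL(2, ℤ) ⧸ Γ) : ℤ) = e₀ * v.ord f := by
  have hfin : Finite (SL(2, ℤ) ⧸ Γ) := finite_quot_of_finrank hn
  let fam := ptFamily F P c τ₀ e₀ hord g₀ hg₀ hprim
  have hfd : FiniteDimensional k⟮jOf F P - algebraMap k F c⟯ F := by
    rw [adjoin_sub_const_eq]; infer_instance
  have hσ : fam.σ (g : SL(2, ℤ) ⧸ Γ) = ptEmb F P τ₀ g := sigma_mk_eq_ptEmb F P τ₀ g
  have key := ordOf_mul_minimalPeriod (jOf F P - algebraMap k F c)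
    (transcendental_sub_const hj c) (by rw [adjoin_sub_const_eq, hn]) fam.σ fam.inj fam.const
    fam.agree e₀ he₀ fam.order g₀ fam.ζ fam.prim fam.rot (g : SL(2, ℤ) ⧸ Γ) v
    (by rw [hσ]; exact hv) f hf
  rwa [hσ] at key

/-- Iteration of `pointE_rot`. -/
theorem pointE_rot_pow (τ₀ : ℍ) {g : SL(2, ℤ)} (hg : g • τ₀ = τ₀) (f : holo) (n : ℕ) (f' : holo)
    (h : ∀ τ, f'.1 τ = f.1 ((g⁻¹) ^ n • τ)) (m : ℤ) :
    (pointE τ₀ f').coeff m = (lam τ₀ g⁻¹ ^ m) ^ n * (pointE τ₀ f).coeff m := by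
  induction n generalizing f' with
  | zero =>
    have : f' = f := Subtype.ext (funext fun τ => by simpa using h τ)
    rw [this, pow_zero, one_mul]
  | succ n ih =>
    let f'' : holo := ⟨fun τ => f.1 ((g⁻¹) ^ n • τ), mdiff_comp_smul f.2 _⟩
    have h1 := ih f'' (fun τ => rfl)
    have h2 := pointE_rot τ₀ hg f'' f' (fun τ => by
      rw [h τ, pow_succ, mul_smul]) m
    rw [h2, h1, pow_succ]
    ring

/-- A holomorphic function invariant under `g₀⁻ⁿ` has order `s` at `τ₀` with `e₀ ∣ s n`. -/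
theorem dvd_order_mul_of_invariant (τ₀ : ℍ) {g₀ : SL(2, ℤ)} (hg₀ : g₀ • τ₀ = τ₀) {e₀ : ℕ}
    (hprim : IsPrimitiveRoot (lam τ₀ g₀⁻¹) e₀) (H : holo) (hH : H ≠ 0) (n : ℕ)
    (hinv : ∀ τ, H.1 ((g₀⁻¹) ^ n • τ) = H.1 τ) :
    (e₀ : ℤ) ∣ (pointE τ₀ H).order * n := by
  have h1 := pointE_rot_pow τ₀ hg₀ H n H (fun τ => (hinv τ).symm) (pointE τ₀ H).order
  have hne : pointE τ₀ H ≠ 0 := fun h => hH (pointE_injective τ₀ (by rw [h, map_zero]))
  have hc : (pointE τ₀ H).coeff (pointE τ₀ H).order ≠ 0 :=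
    fun h0 => hne (HahnSeries.coeff_order_eq_zero.mp h0)
  have h3 : (lam τ₀ g₀⁻¹ ^ (pointE τ₀ H).order) ^ n = 1 := by
    have : ((lam τ₀ g₀⁻¹ ^ (pointE τ₀ H).order) ^ n - 1) *
        (pointE τ₀ H).coeff (pointE τ₀ H).order = 0 := by
      rw [sub_mul, one_mul, ← h1, sub_self]
    exact sub_eq_zero.mp ((mul_eq_zero.mp this).resolve_right hc)
  rwa [← zpow_natCast, ← zpow_mul, hprim.zpow_eq_one_iff_dvd] at h3

/-- (NA2) If `Ψ a` has a holomorphic `m`-th root which is invariant under the elements of `Γ`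
having a fixed point, then `m` divides the order of `a` at every place where `j` is finite. -/
theorem dvd_ord_of_root_point (hj : Transcendental k (jOf F P)) [FiniteDimensional k⟮jOf F P⟯ F]
    (hn : finrank k⟮jOf F P⟯ F = Nat.card (SL(2, ℤ) ⧸ Γ))
    (m : ℕ) [NeZero m] (a : A) (ha : a ≠ 0)
    (h : ℍ → ℂ) (hh : MDiff h) (hpow : ∀ τ, h τ ^ m = P.Ψ a τ)
    (hinv : ∀ γ ∈ Γ, ∀ τ₀ : ℍ, γ • τ₀ = τ₀ → ∀ τ, h (γ • τ) = h τ)
    (v : Place k F) (hv : 0 ≤ v.ord (jOf F P)) :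
    (m : ℤ) ∣ v.ord (algebraMap A F a) := by
  obtain ⟨c, τ₀, e₀, g₀, g, he₀, hord, hg₀, hprim, hvg⟩ := exists_ptEmb_of_place P hj hn v hv
  have haF : algebraMap A F a ≠ 0 := by
    rw [Ne, IsFractionRing.to_map_eq_zero_iff]; exact ha
  have key := ordOf_ptEmb_mul P hj hn c τ₀ e₀ g₀ g he₀ hord hg₀ hprim v hvg _ haF
  set n := Function.minimalPeriod (g₀ • ·) (g : SL(2, ℤ) ⧸ Γ) with hn'
  -- the translated root
  let H : holo := ⟨fun τ => h (g⁻¹ • τ), mdiff_comp_smul hh g⁻¹⟩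
  have hHpow : H ^ m = ⟨translate P.Ψ g a, mdiff_comp_smul (P.hol a) g⁻¹⟩ := by
    apply Subtype.ext
    funext τ
    exact hpow (g⁻¹ • τ)
  have hord1 : ordOf (ptEmb F P τ₀ g) (algebraMap A F a) = m * (pointE τ₀ H).order := by
    unfold ordOf
    rw [ptEmb_algebraMap, ← hHpow, map_pow, HahnSeries.order_pow, nsmul_eq_mul]
  have hH0 : H ≠ 0 := by
    intro h0
    rw [h0, zero_pow (NeZero.ne m)] at hHpow
    have h1 : translate P.Ψ g a = 0 := (congrArg Subtype.val hHpow).symm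
    exact ha (translate_injective P.inj g (by rw [h1, map_zero]))
  -- invariance
  have hper : g₀ ^ n • (g : SL(2, ℤ) ⧸ Γ) = (g : SL(2, ℤ) ⧸ Γ) := by
    rw [MulAction.pow_smul_eq_iff_minimalPeriod_dvd]
  have hmem : (g₀ ^ n * g)⁻¹ * g ∈ Γ := by
    have : ((g₀ ^ n * g : SL(2, ℤ)) : SL(2, ℤ) ⧸ Γ) = (g : SL(2, ℤ) ⧸ Γ) := hper
    exact QuotientGroup.eq.mp this
  have hg₀n : ∀ j : ℕ, (g₀⁻¹) ^ j • τ₀ = τ₀ := by
    intro j
    induction j with
    | zero => simp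
    | succ j ih => rw [pow_succ, mul_smul, inv_smul_eq_iff.mpr hg₀.symm, ih]
  have hHinv : ∀ τ, H.1 ((g₀⁻¹) ^ n • τ) = H.1 τ := by
    intro τ
    show h (g⁻¹ • (g₀⁻¹) ^ n • τ) = h (g⁻¹ • τ)
    have e1 : g⁻¹ • (g₀⁻¹) ^ n • τ = ((g₀ ^ n * g)⁻¹ * g) • (g⁻¹ • τ) := by
      rw [← mul_smul, ← mul_smul]
      congr 1
      group
    rw [e1]
    refine hinv _ hmem (g⁻¹ • τ₀) ?_ _
    rw [← mul_smul]
    have e2 : (g₀ ^ n * g)⁻¹ * g * g⁻¹ = g⁻¹ * (g₀⁻¹) ^ n := by group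
    rw [e2, mul_smul, hg₀n]
  obtain ⟨t, ht⟩ := dvd_order_mul_of_invariant τ₀ hg₀ hprim H hH0 n hHinv
  rw [hord1, mul_assoc, ht] at key
  have he₀' : (e₀ : ℤ) ≠ 0 := by exact_mod_cast he₀.ne'
  refine ⟨t, ?_⟩
  have : (e₀ : ℤ) * v.ord (algebraMap A F a) = e₀ * (m * t) := by rw [← key]; ring
  exact mul_left_cancel₀ he₀' this

end Fermat.Agent.GAL.Tors.Dict
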