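import Fermat.Agent.GAL.Tors.Dict.AbsEmb
import Fermat.Agent.GAL.Tors.Dict.ExactRam
import Fermat.Agent.GAL.Tors.Dict.RC
import Fermat.Agent.S24.PlaceDeg

/-!
# DICT leaf NC (an => alg, cusps)
-/

set_option autoImplicit false
set_option linter.unusedSectionVars false

open UpperHalfPlane AlgebraicCurve IntermediateField Module
open scoped Manifold MatrixGroups

namespace Fermat.Agent.GAL.Tors.Dict

open Fermat.Agent.S24 Fermat.Agent.S24.Embed Fermat.Agent.S24.EmbedPoint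
  Fermat.Agent.S24.EmbedCusp Fermat.Agent.S24.CuspRing Fermat.Agent.S24.PointExp

variable {k A F : Type*} [Field k] [IsAlgClosed k] [CharZero k] [CommRing A] [Field F]
  [Algebra k A] [Algebra A F] [Algebra k F] [IsScalarTower k A F] [IsFractionRing A F]
variable {Γ : Subgroup SL(2, ℤ)} (P : Realisation k A Γ)

theorem finite_quot_of_finrank' {j : F} [FiniteDimensional k⟮j⟯ F]
    (hn : finrank k⟮j⟯ F = Nat.card (SL(2, ℤ) ⧸ Γ)) : Finite (SL(2, ℤ) ⧸ Γ) := by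
  apply Nat.finite_of_card_ne_zero
  rw [← hn]
  exact (finrank_pos (R := k⟮j⟯) (M := F)).ne'

/-- (NC0) every pole of `j` comes from one of the explicit embeddings at the cusp. -/
theorem exists_cuspEmb_of_place (N : ℕ) [NeZero N]
    (hc : ∀ (g : SL(2, ℤ)) (a : A), translate P.Ψ g a ∈ Rcusp N)
    (hj : Transcendental k (jOf F P)) [FiniteDimensional k⟮jOf F P⟯ F]
    (hn : finrank k⟮jOf F P⟯ F = Nat.card (SL(2, ℤ) ⧸ Γ))
    (v : Place k F) (hv : v.ord (jOf F P) < 0) :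
    ∃ g : SL(2, ℤ), v.toValuationSubring = ringOf (cuspEmb F P N hc g) := by
  classical
  have hfin : Finite (SL(2, ℤ) ⧸ Γ) := finite_quot_of_finrank' hn
  cases nonempty_fintype (SL(2, ℤ) ⧸ Γ)
  let fam := cuspFamily F P N hc
  have hfd : FiniteDimensional k⟮(jOf F P)⁻¹⟯ F := by
    rw [adjoin_inv_eq]; infer_instance
  have hN : 0 < N := Nat.pos_of_ne_zero (NeZero.ne N)
  obtain ⟨i, hi⟩ := exists_embedding_of_place (jOf F P)⁻¹ (transcendental_inv hj)
    (by rw [adjoin_inv_eq, hn, Nat.card_eq_fintype_card]) fam.σ fam.inj fam.const fam.agree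
    (fun i => by unfold ordOf; rw [fam.order i]; exact_mod_cast hN) v
    (by rw [v.ord_inv]; omega)
  induction i using QuotientGroup.induction_on with | H g => ?_
  refine ⟨g, ?_⟩
  rw [hi]
  show ringOf ((cuspData P N hc).sigma F (g : SL(2, ℤ) ⧸ Γ)) = _
  rw [sigma_mk_eq_cuspEmb]

/-- (NC1) exact ramification of the explicit embeddings at the cusps. -/
theorem ordOf_cuspEmb_mul (N : ℕ) [NeZero N]
    (hc : ∀ (g : SL(2, ℤ)) (a : A), translate P.Ψ g a ∈ Rcusp N)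
    (hj : Transcendental k (jOf F P)) [FiniteDimensional k⟮jOf F P⟯ F]
    (hn : finrank k⟮jOf F P⟯ F = Nat.card (SL(2, ℤ) ⧸ Γ)) (g : SL(2, ℤ))
    (v : Place k F) (hv : v.toValuationSubring = ringOf (cuspEmb F P N hc g)) (f : F)
    (hf : f ≠ 0) :
    ordOf (cuspEmb F P N hc g) f *
      (Function.minimalPeriod (ModularGroup.T • ·) (g : SL(2, ℤ) ⧸ Γ) : ℤ) = N * v.ord f := by
  have hfin : Finite (SL(2, ℤ) ⧸ Γ) := finite_quot_of_finrank' hn
  let fam := cuspFamily F P N hc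
  have hfd : FiniteDimensional k⟮(jOf F P)⁻¹⟯ F := by
    rw [adjoin_inv_eq]; infer_instance
  have hN : 0 < N := Nat.pos_of_ne_zero (NeZero.ne N)
  have hσ : fam.σ (g : SL(2, ℤ) ⧸ Γ) = cuspEmb F P N hc g := sigma_mk_eq_cuspEmb F P N hc g
  have key := ordOf_mul_minimalPeriod (jOf F P)⁻¹ (transcendental_inv hj)
    (by rw [adjoin_inv_eq, hn]) fam.σ fam.inj fam.const
    fam.agree N hN fam.order ModularGroup.T fam.ζ fam.prim fam.rot (g : SL(2, ℤ) ⧸ Γ) v
    (by rw [hσ]; exact hv) f hf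
  rwa [hσ] at key

/-- `order_Ecusp_mul` with the factors in the other order. -/
theorem order_Ecusp_mul_left {N m : ℕ} [NeZero N] [NeZero m] {f : ℍ → ℂ} (hf : f ∈ Rcusp N)
    (hf' : f ∈ Rcusp (m * N)) :
    (Ecusp (m * N) ⟨f, hf'⟩).order = m * (Ecusp N ⟨f, hf⟩).order := by
  have key : ∀ (L : ℕ) (_ : L = N * m) [NeZero L] (hf'' : f ∈ Rcusp L),
      (Ecusp L ⟨f, hf''⟩).order = m * (Ecusp N ⟨f, hf⟩).order := by
    intro L hL _ hf''
    subst hL
    exact order_Ecusp_mul hf hf''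
  exact key _ (Nat.mul_comm m N) hf'

theorem mem_Rcusp_mul_left {N m : ℕ} [NeZero N] [NeZero m] {f : ℍ → ℂ} (hf : f ∈ Rcusp N) :
    f ∈ Rcusp (m * N) := by
  rw [Nat.mul_comm]
  exact mem_Rcusp_mul hf

/-- An `m`-th root of a function of moderate growth has moderate growth. -/
theorem isBigO_of_pow_nc {m : ℕ} (hm : m ≠ 0) {H : ℍ → ℂ} {M : ℕ}
    (h : (fun τ => H τ ^ m) =O[atImInfty] fun τ : ℍ => Real.exp (2 * Real.pi * M * τ.im)) :
    H =O[atImInfty] fun τ : ℍ => Real.exp (2 * Real.pi * M * τ.im) := by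
  obtain ⟨C, hC⟩ := h.bound
  refine Asymptotics.IsBigO.of_bound (max 1 C) ?_
  filter_upwards [hC] with τ hτ
  have hE : 1 ≤ Real.exp (2 * Real.pi * M * τ.im) := by
    apply Real.one_le_exp
    have := τ.im_pos
    positivity
  rw [Real.norm_of_nonneg (Real.exp_pos _).le] at hτ ⊢
  by_cases h1 : ‖H τ‖ ≤ 1
  · calc ‖H τ‖ ≤ 1 := h1
      _ ≤ 1 * Real.exp (2 * Real.pi * M * τ.im) := by rw [one_mul]; exact hE
      _ ≤ max 1 C * Real.exp (2 * Real.pi * M * τ.im) :=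
        mul_le_mul_of_nonneg_right (le_max_left _ _) (Real.exp_pos _).le
  · have h2 : ‖H τ‖ ≤ ‖H τ‖ ^ m := le_self_pow₀ (not_le.mp h1).le hm
    rw [norm_pow] at hτ
    calc ‖H τ‖ ≤ ‖H τ‖ ^ m := h2
      _ ≤ C * Real.exp (2 * Real.pi * M * τ.im) := hτ
      _ ≤ max 1 C * Real.exp (2 * Real.pi * M * τ.im) :=
        mul_le_mul_of_nonneg_right (le_max_right _ _) (Real.exp_pos _).le

/-- (NC2) If `Ψ a` has a holomorphic `m`-th root which is invariant under the parabolic elements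
of `Γ`, then `m` divides the order of `a` at every pole of `j`. -/
theorem dvd_ord_of_root_cusp (N : ℕ) [NeZero N]
    (hc : ∀ (g : SL(2, ℤ)) (a : A), translate P.Ψ g a ∈ Rcusp N)
    (hj : Transcendental k (jOf F P)) [FiniteDimensional k⟮jOf F P⟯ F]
    (hn : finrank k⟮jOf F P⟯ F = Nat.card (SL(2, ℤ) ⧸ Γ))
    (m : ℕ) [NeZero m] (a : A) (ha : a ≠ 0)
    (h : ℍ → ℂ) (hh : MDiff h) (hpow : ∀ τ, h τ ^ m = P.Ψ a τ)
    (hinv : ∀ γ ∈ Γ, (γ : Matrix (Fin 2) (Fin 2) ℤ).trace ^ 2 = 4 → ∀ τ, h (γ • τ) = h τ)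
    (v : Place k F) (hv : v.ord (jOf F P) < 0) :
    (m : ℤ) ∣ v.ord (algebraMap A F a) := by
  obtain ⟨g, hvg⟩ := exists_cuspEmb_of_place P N hc hj hn v hv
  have haF : algebraMap A F a ≠ 0 := by
    rw [Ne, IsFractionRing.to_map_eq_zero_iff]; exact ha
  have hj0 : jOf F P ≠ 0 := by
    intro h
    rw [h] at hj
    exact hj isAlgebraic_zero
  have key := ordOf_cuspEmb_mul P N hc hj hn g v hvg _ haF
  have keyj := ordOf_cuspEmb_mul P N hc hj hn g v hvg _ hj0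
  set n := Function.minimalPeriod (ModularGroup.T • ·) (g : SL(2, ℤ) ⧸ Γ) with hn'
  have hN0 : (N : ℤ) ≠ 0 := by exact_mod_cast NeZero.ne N
  have hn0 : n ≠ 0 := by
    intro h0
    rw [h0, Nat.cast_zero, mul_zero] at keyj
    rcases mul_eq_zero.mp keyj.symm with h1 | h1
    · exact hN0 h1
    · omega
  have : NeZero n := ⟨hn0⟩
  -- the translated root
  let H : ℍ → ℂ := fun τ => h (g⁻¹ • τ)
  have hHd : MDiff H := mdiff_comp_smul hh g⁻¹
  have hHpow : H ^ m = translate P.Ψ g a := by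
    funext τ
    exact hpow (g⁻¹ • τ)
  -- invariance
  have hper : ModularGroup.T ^ n • (g : SL(2, ℤ) ⧸ Γ) = (g : SL(2, ℤ) ⧸ Γ) := by
    rw [MulAction.pow_smul_eq_iff_minimalPeriod_dvd]
  have hmem : (ModularGroup.T ^ n * g)⁻¹ * g ∈ Γ := by
    have : ((ModularGroup.T ^ n * g : SL(2, ℤ)) : SL(2, ℤ) ⧸ Γ) = (g : SL(2, ℤ) ⧸ Γ) := hper
    exact QuotientGroup.eq.mp this
  have htr : (((ModularGroup.T ^ n * g)⁻¹ * g : SL(2, ℤ)) : Matrix (Fin 2) (Fin 2) ℤ).trace ^ 2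
      = 4 := by
    have e2 : (ModularGroup.T ^ n * g)⁻¹ * g = g⁻¹ * ((ModularGroup.T ^ (-(n : ℤ))) * g) := by
      group
    rw [e2, Matrix.SpecialLinearGroup.coe_mul, Matrix.trace_mul_comm,
      ← Matrix.SpecialLinearGroup.coe_mul, mul_assoc, mul_inv_cancel, mul_one,
      ModularGroup.coe_T_zpow]
    simp [Matrix.trace_fin_two]
  have hHinv : ∀ τ, H ((ModularGroup.T ^ (-(n : ℤ))) • τ) = H τ := by
    intro τ
    show h (g⁻¹ • (ModularGroup.T ^ (-(n : ℤ))) • τ) = h (g⁻¹ • τ)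
    have e1 : g⁻¹ • (ModularGroup.T ^ (-(n : ℤ))) • τ =
        ((ModularGroup.T ^ n * g)⁻¹ * g) • (g⁻¹ • τ) := by
      rw [← mul_smul, ← mul_smul]
      congr 1
      group
    rw [e1]
    exact hinv _ hmem htr _
  have hHper : ∀ τ : ℍ, H ((n : ℝ) +ᵥ τ) = H τ := by
    intro τ
    rw [← hHinv ((n : ℝ) +ᵥ τ)]
    congr 1
    ext
    rw [ModularGroup.coe_T_zpow_smul_eq, UpperHalfPlane.coe_vadd]
    push_cast
    ring
  obtain ⟨M, hM⟩ := isBigO_of_mem (hc g a)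
  have hHn : H ∈ Rcusp n := mem_Rcusp_of_periodic hHd hHper
    ⟨M, isBigO_of_pow_nc (NeZero.ne m) (by rw [← hHpow] at hM; exact hM)⟩
  have hH1 : H ∈ Rcusp (N * n) := mem_Rcusp_mul_left hHn
  have ha1 : translate P.Ψ g a ∈ Rcusp (N * n) := mem_Rcusp_mul (hc g a)
  have o1 := order_Ecusp_mul_left hHn hH1
  have o2 := order_Ecusp_mul (hc g a) ha1
  have e3 : (⟨translate P.Ψ g a, ha1⟩ : Rcusp (N * n)) = ⟨H, hH1⟩ ^ m := by
    apply Subtype.ext
    exact hHpow.symm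
  rw [e3, map_pow, HahnSeries.order_pow, nsmul_eq_mul, o1] at o2
  have hord1 : ordOf (cuspEmb F P N hc g) (algebraMap A F a) =
      (Ecusp N ⟨translate P.Ψ g a, hc g a⟩).order := by
    unfold ordOf
    rw [cuspEmb_algebraMap]
  rw [hord1] at key
  refine ⟨(Ecusp n ⟨H, hHn⟩).order, ?_⟩
  have : (N : ℤ) * v.ord (algebraMap A F a) = N * (m * (Ecusp n ⟨H, hHn⟩).order) := by
    rw [← key, mul_comm, ← o2]; ring
  exact mul_left_cancel₀ hN0 this

end Fermat.Agent.GAL.Tors.Dict
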