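import Mathlib

set_option autoImplicit false

/-!
# DICT leaf SL: an element of `SL₂(ℤ)` with a fixed point in `ℍ` is not hyperbolic
-/

open UpperHalfPlane
open scoped MatrixGroups

namespace Fermat.Agent.GAL.Tors.Dict

theorem trace_sq_le_four_of_fixed (γ : SL(2, ℤ)) (τ₀ : ℍ) (h : γ • τ₀ = τ₀) :
    (γ : Matrix (Fin 2) (Fin 2) ℤ).trace ^ 2 ≤ 4 := by
  have hdet : γ 0 0 * γ 1 1 - γ 0 1 * γ 1 0 = 1 := by
    have := γ.det_coe
    rwa [Matrix.det_fin_two] at this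
  have h1 : ((γ • τ₀ : ℍ) : ℂ) = (τ₀ : ℂ) := by rw [h]
  rw [UpperHalfPlane.coe_specialLinearGroup_apply] at h1
  have hden : ((γ 1 0 : ℤ) : ℂ) * (τ₀ : ℂ) + ((γ 1 1 : ℤ) : ℂ) ≠ 0 := by
    have := UpperHalfPlane.denom_ne_zero (γ : GL (Fin 2) ℝ) τ₀
    simpa [UpperHalfPlane.denom] using this
  have h2 : ((γ 0 0 : ℤ) : ℂ) * (τ₀ : ℂ) + ((γ 0 1 : ℤ) : ℂ)
      = (τ₀ : ℂ) * (((γ 1 0 : ℤ) : ℂ) * (τ₀ : ℂ) + ((γ 1 1 : ℤ) : ℂ)) := by
    have h3 := h1
    simp only [algebraMap_int_eq, Int.coe_castRingHom, Complex.ofReal_intCast] at h3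
    rw [div_eq_iff hden] at h3
    exact h3
  set a : ℝ := ((γ 0 0 : ℤ) : ℝ) with ha
  set b : ℝ := ((γ 0 1 : ℤ) : ℝ) with hb
  set c : ℝ := ((γ 1 0 : ℤ) : ℝ) with hc
  set d : ℝ := ((γ 1 1 : ℤ) : ℝ) with hd
  have hy : 0 < τ₀.im := τ₀.im_pos
  set x : ℝ := τ₀.re with hx
  set y : ℝ := τ₀.im with hy'
  have hre := congrArg Complex.re h2
  have him := congrArg Complex.im h2
  simp only [Complex.add_re, Complex.mul_re, Complex.add_im, Complex.mul_im, Complex.intCast_re,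
    Complex.intCast_im, UpperHalfPlane.coe_re, UpperHalfPlane.coe_im, zero_mul, sub_zero,
    add_zero] at hre him
  have hdetR : a * d - b * c = 1 := by
    have := congrArg (Int.cast : ℤ → ℝ) hdet
    push_cast at this
    exact this
  have e1 : d - a = -2 * c * x := by
    have : y * (d - a + 2 * c * x) = 0 := by
      simp only [← ha, ← hc, ← hd, ← hx, ← hy'] at him
      linear_combination -him
    rcases mul_eq_zero.mp this with h0 | h0
    · exact absurd h0 hy.ne'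
    · linarith
  have e2 : b = -c * (x ^ 2 + y ^ 2) := by
    simp only [← ha, ← hb, ← hc, ← hd, ← hx, ← hy'] at hre
    linear_combination hre + x * e1
  have key : (a + d) ^ 2 ≤ 4 := by
    have : (a + d) ^ 2 - 4 = -4 * c ^ 2 * y ^ 2 := by
      have h5 : (a + d) ^ 2 - 4 = (d - a) ^ 2 + 4 * b * c := by
        linear_combination 4 * hdetR
      rw [h5, e1, e2]
      ring
    nlinarith [sq_nonneg (c * y)]
  have : ((γ : Matrix (Fin 2) (Fin 2) ℤ).trace : ℝ) ^ 2 ≤ 4 := by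
    rw [Matrix.trace_fin_two]
    push_cast
    exact key
  exact_mod_cast this

end Fermat.Agent.GAL.Tors.Dict
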