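import Fermat.Agent.GAL.Tors.Dict.Degree
import Fermat.Agent.GAL.Tors.Dict.AlgAn
import Fermat.Agent.GAL.Tors.Dict.AlgAnCusp
import Fermat.Agent.GAL.Tors.Dict.AnAlg
import Fermat.Agent.GAL.Tors.Dict.AnAlgCusp
import Fermat.Agent.GAL.Tors.Dict.SL2

/-!
# DICT: the dictionary for `FF K N` (instantiation of the abstract leaves; no sorry of its own)
-/

set_option autoImplicit false
set_option linter.unusedSectionVars false

open UpperHalfPlane AlgebraicCurve ModularCurve CongruenceSubgroup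
open scoped Manifold MatrixGroups

namespace Fermat.Agent.GAL.Tors.Dict

open Fermat.Agent.S24 Fermat.Agent.GAL

variable (K : Type) [Field K] [Algebra ℚ K] [IsAlgClosed K] [CharZero K] (ι : K →+* ℂ)
  (N : ℕ) [NeZero N]

/-- alg => an : orders. -/
theorem conc_orders (m : ℕ) (a : AK K N) (ha : a ≠ 0)
    (hdiv : ∀ v : Place K (FF K N), (m : ℤ) ∣ v.ord (a : FF K N)) (τ : ℍ) :
    ∃ n : ℕ, analyticOrderAt (PsiA K ι N a ∘ ofComplex) (τ : ℂ) = ((m * n : ℕ) : ℕ∞) :=
  exists_analyticOrderAt_eq_mul (F := FF K N) (realisation K ι N) m a ha hdiv τ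

/-- alg => an : the root is invariant under non hyperbolic elements. -/
theorem conc_root_invariant (m : ℕ) [NeZero m] (a : AK K N) (ha : a ≠ 0)
    (hdiv : ∀ v : Place K (FF K N), (m : ℤ) ∣ v.ord (a : FF K N))
    (h : ℍ → ℂ) (hh : MDiff h) (hpow : ∀ τ, h τ ^ m = PsiA K ι N a τ)
    (γ : SL(2, ℤ)) (hγ : γ ∈ Gamma0 N)
    (htr : (γ : Matrix (Fin 2) (Fin 2) ℤ).trace ^ 2 ≤ 4) (τ : ℍ) : h (γ • τ) = h τ := by
  rcases htr.lt_or_eq with h1 | h1
  · obtain ⟨τ₀, hτ₀⟩ := exists_fixed_of_trace_sq_lt_four γ h1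
    exact root_smul_eq_of_fixed (F := FF K N) (realisation K ι N) m a ha hdiv h hh hpow γ hγ τ₀
      hτ₀ τ
  · exact root_smul_eq_of_parabolic (F := FF K N) (realisation K ι N) N
      (translate_mem_Rcusp K ι N) m a ha hdiv h hh hpow γ hγ h1 τ

/-- an => alg. -/
theorem conc_dvd_ord (m : ℕ) [NeZero m] (a : AK K N) (ha : a ≠ 0)
    (h : ℍ → ℂ) (hh : MDiff h) (hpow : ∀ τ, h τ ^ m = PsiA K ι N a τ)
    (hinv : ∀ γ ∈ Gamma0 N, (γ : Matrix (Fin 2) (Fin 2) ℤ).trace ^ 2 ≤ 4 →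
      ∀ τ, h (γ • τ) = h τ)
    (v : Place K (FF K N)) : (m : ℤ) ∣ v.ord (a : FF K N) := by
  have hj : Transcendental K (jOf (FF K N) (realisation K ι N)) := transcendental_jF K N
  haveI : FiniteDimensional (IntermediateField.adjoin K {jOf (FF K N) (realisation K ι N)})
      (FF K N) := finiteDimensional_jF K ι N
  have hn := finrank_jF K ι N
  rcases le_or_gt 0 (v.ord (jOf (FF K N) (realisation K ι N))) with hv | hv
  · exact dvd_ord_of_root_point (F := FF K N) (realisation K ι N) hj hn m a ha h hh hpow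
      (fun γ hγ τ₀ hτ₀ => hinv γ hγ (trace_sq_le_four_of_fixed γ τ₀ hτ₀)) v hv
  · exact dvd_ord_of_root_cusp (F := FF K N) (realisation K ι N) N (translate_mem_Rcusp K ι N)
      hj hn m a ha h hh hpow (fun γ hγ htr => hinv γ hγ htr.le) v hv

end Fermat.Agent.GAL.Tors.Dict
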